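/-
Fermat/Agent/AV/F1Model15/Interface.lean  (helper15) -- programme AV (S26 + S27), brick F1
"model curve of a function field", INTERFACE.

`F / K` a function field of one variable over an algebraically closed field (`IsCurveOver K F`,
`Algebra.EssFiniteType K F`, same universe).  F1 produces a smooth proper integral pointed curve
`c : C ⟶ Spec K` in the S25 format together with `CurveCharts c ε` whose chart rings are
identified with explicit subalgebras `B0, B1, B01` of `F`
(`B0` = integral closure of `K[t]`, `B1` = integral closure of `K[1/t]`, `B01 = B0[1/t] = B1[t]`).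

Sub-bricks (each one proves ONE statement of this file):
* F1a `ChartAlgExists`           : the algebra of the two charts            (Mathlib + Prelude)
* F1b (helper15, file Glue*.lean) : gluing two affine schemes, proper by the valuative criterion
* F1c `SmoothDedekindStatement`  : a Dedekind domain of finite type over an algebraically closed
                                   field is smooth; relative dimension from `Ω[F⁄K]`
* F1d (helper15) `ModelExists`   : assembly.
-/
import Mathlib
import Fermat.Prelude.Def_AlgebraicCurve_IsCurveOver
import Fermat.Agent.Jac.CurveCharts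
import Fermat.Agent.Jac.AffineDict87.Setup

set_option autoImplicit false

open CategoryTheory CategoryTheory.Limits AlgebraicGeometry TopologicalSpace Opposite
open NeronModelInfra Polynomial

universe u

noncomputable section

namespace Fermat.Agent.AV.F1Model15

/-! ### F1a: the two chart algebras inside the function field -/

/-- The algebra of the two standard charts of a function field `F / K` with respect to a
transcendental element `t`. -/
structure ChartAlg (K F : Type u) [Field K] [Field F] [Algebra K F] where
  /-- the coordinate -/
  t : F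
  transc : Transcendental K t
  /-- the integral closure of `K[t]` in `F` -/
  B0 : Subalgebra K F
  /-- the integral closure of `K[1/t]` in `F` -/
  B1 : Subalgebra K F
  /-- `B0[1/t] = B1[t]` -/
  B01 : Subalgebra K F
  t_mem : t ∈ B0
  s_mem : t⁻¹ ∈ B1
  le0 : B0 ≤ B01
  le1 : B1 ≤ B01
  away0 : letI := (Subalgebra.inclusion le0).toRingHom.toAlgebra
    IsLocalization.Away (⟨t, t_mem⟩ : B0) B01
  away1 : letI := (Subalgebra.inclusion le1).toRingHom.toAlgebra
    IsLocalization.Away (⟨t⁻¹, s_mem⟩ : B1) B01
  /-- `B0` is integrally closed in `F` over `K[t]` -/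
  mem0_iff : ∀ f : F, f ∈ B0 ↔ IsIntegral (Algebra.adjoin K {t}) f
  mem1_iff : ∀ f : F, f ∈ B1 ↔ IsIntegral (Algebra.adjoin K {t⁻¹}) f
  dedekind0 : IsDedekindDomain B0
  dedekind1 : IsDedekindDomain B1
  frac0 : IsFractionRing B0 F
  frac1 : IsFractionRing B1 F
  finiteType0 : Algebra.FiniteType K B0
  finiteType1 : Algebra.FiniteType K B1
  finite0 : Module.Finite K[X] (Module.AEval K B0 (⟨t, t_mem⟩ : B0))
  free0 : Module.Free K[X] (Module.AEval K B0 (⟨t, t_mem⟩ : B0))
  finite1 : Module.Finite K[X] (Module.AEval K B1 (⟨t⁻¹, s_mem⟩ : B1))
  free1 : Module.Free K[X] (Module.AEval K B1 (⟨t⁻¹, s_mem⟩ : B1))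
  /-- regular everywhere implies constant -/
  inter : ∀ f : F, f ∈ B0 → f ∈ B1 → f ∈ (⊥ : Subalgebra K F)

/-- **F1a.**  Every function field of one variable over an algebraically closed field of
characteristic zero has a chart algebra.  (Route: `exists_isTranscendenceBasis_and_isSeparable_of_
perfectField`; the transcendence basis has one element because `Ω[F⁄K]` has rank one; `F / K(t)`
finite separable; integral closures of the PIDs `K[t]`, `K[1/t]` are finite, hence Dedekind, of
finite type, torsion free hence free; `B0 ∩ B1 = K` by the minimal polynomial argument.) -/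
def ChartAlgExists : Prop :=
  ∀ (K F : Type u) [Field K] [Field F] [Algebra K F] [IsAlgClosed K] [CharZero K]
    [AlgebraicCurve.IsCurveOver K F] [Algebra.EssFiniteType K F], Nonempty (ChartAlg K F)

/-! ### F1c: Dedekind domains of finite type over an algebraically closed field are smooth -/

/-- **F1c (i).**  (Route: `Algebra.smoothLocus_eq_univ_iff`; at the generic point
`Algebra.FormallySmooth.of_perfectField`; at a maximal ideal `m` the local ring is a DVR with
residue field `K`; present it as a quotient `P / I` of the localisation `P` of a polynomial ring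
in `n` variables at a `K`-point; pick `f_1 .. f_{n-1} ∈ I` independent modulo `m_P ^ 2`;
`P / (f_i)` is a noetherian local ring with principal maximal ideal, so its non-maximal prime
`I / (f_i)` is zero; hence `I = (f_i)` and the Jacobian criterion
`Algebra.FormallySmooth.iff_injective_cotangentComplexBaseChange_residueField` applies.) -/
def SmoothDedekindStatement : Prop :=
  ∀ (K B : Type u) [Field K] [IsAlgClosed K] [CommRing B] [IsDomain B] [IsDedekindDomain B]
    [Algebra K B] [Algebra.FiniteType K B], Algebra.Smooth K B

/-- **F1c (ii).**  Relative dimension one, from the rank of the differentials of the fraction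
field.  (Route: `Algebra.Smooth.exists_span_eq_top_isStandardSmooth`,
`Algebra.IsStandardSmoothOfRelativeDimension.iff_of_isStandardSmooth`, localisation of Kähler
differentials.) -/
def RelDimOneStatement : Prop :=
  ∀ (K B F : Type u) [Field K] [CommRing B] [IsDomain B] [Algebra K B] [Algebra.Smooth K B]
    [Field F] [Algebra B F] [Algebra K F] [IsScalarTower K B F] [IsFractionRing B F],
    Module.finrank F Ω[F⁄K] = 1 →
    ∃ s : Set B, Ideal.span s = ⊤ ∧
      ∀ r ∈ s, Algebra.IsStandardSmoothOfRelativeDimension 1 K (Localization.Away r)

/-! ### F1: the model curve -/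

open Fermat.Agent.Jac in
/-- The model curve of a function field, in the S25 format, with its two charts identified with
explicit subalgebras of the function field. -/
structure Model (K F : Type u) [Field K] [Field F] [Algebra K F] where
  C : Scheme.{u}
  c : C ⟶ Spec (CommRingCat.of K)
  isProper : IsProper c
  smooth : SmoothOfRelativeDimension 1 c
  isIntegral : IsIntegral C
  ε : SchemeHomOver (𝟙 (Spec (CommRingCat.of K))) c
  cc : CurveCharts c ε
  alg : ChartAlg K F
  e0 : alg.B0 ≃ₐ[K] cc.B0
  e1 : alg.B1 ≃ₐ[K] cc.B1
  e01 : alg.B01 ≃ₐ[K] cc.B01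
  e01_res0 : ∀ b : alg.B0, e01 (Subalgebra.inclusion alg.le0 b) = algebraMap cc.B0 cc.B01 (e0 b)
  e01_res1 : ∀ b : alg.B1, e01 (Subalgebra.inclusion alg.le1 b) = algebraMap cc.B1 cc.B01 (e1 b)
  e0_t : e0 ⟨alg.t, alg.t_mem⟩ = cc.chart0.t
  e1_s : e1 ⟨alg.t⁻¹, alg.s_mem⟩ = cc.chart0.s

/-- **F1.** -/
def ModelExists : Prop :=
  ∀ (K F : Type u) [Field K] [Field F] [Algebra K F] [IsAlgClosed K] [CharZero K]
    [AlgebraicCurve.IsCurveOver K F] [Algebra.EssFiniteType K F], Nonempty (Model K F)

end Fermat.Agent.AV.F1Model15
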