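/-
Fermat/Agent/AV/F1Model15/SmoothDedekind85.lean (helper85) -- programme AV, brick F1c.
Proves the two statements `SmoothDedekindStatement` and `RelDimOneStatement` of
`F1Model15/Interface.lean`.
-/
import Fermat.Agent.AV.F1Model15.Interface
import Fermat.Agent.AV.F1Smooth85.Alg

set_option autoImplicit false

open Polynomial KaehlerDifferential TensorProduct

universe u

namespace Fermat.Agent.AV.F1Smooth85

/-- rank of the differentials of a standard smooth domain = rank of the differentials of its
fraction field -/
theorem rank_kaehler_eq_of_isFractionRing (K B F : Type u) [Field K] [CommRing B] [IsDomain B]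
    [Algebra K B] [Algebra.IsStandardSmooth K B]
    [Field F] [Algebra B F] [Algebra K F] [IsScalarTower K B F] [IsFractionRing B F] :
    Module.rank B Ω[B⁄K] = Module.rank F Ω[F⁄K] := by
  have : Algebra.FormallyEtale B F := Algebra.FormallyEtale.of_isLocalization (nonZeroDivisors B)
  have e := KaehlerDifferential.tensorKaehlerEquivOfFormallyEtale K B F
  rw [← e.rank_eq, Module.rank_baseChange, Cardinal.lift_id]

/-- Ring-level local form: for a Dedekind domain `B` of finite type over an algebraically closed
field `K`, not a field, the structure map is locally standard smooth of relative dimension one. -/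
theorem locally_isStandardSmoothOfRelativeDimension_one (K B : Type u) [Field K] [IsAlgClosed K]
    [CommRing B] [IsDedekindDomain B] [Algebra K B] [Algebra.FiniteType K B]
    (hB : ¬ IsField B) :
    RingHom.Locally (RingHom.IsStandardSmoothOfRelativeDimension 1) (algebraMap K B) := by
  rw [RingHom.locally_iff_span_eq_top]
  by_contra hne
  obtain ⟨m, hm, hle⟩ := Ideal.exists_le_maximal _ hne
  have hm0 : m ≠ ⊥ := Ring.ne_bot_of_isMaximal_of_not_isField hm hB
  obtain ⟨f, hfm, hf⟩ := exists_away_isStandardSmoothOfRelativeDimension_one K m hm0
  refine hfm (hle (Ideal.subset_span ?_))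
  show RingHom.IsStandardSmoothOfRelativeDimension 1
    ((algebraMap B (Localization.Away f)).comp (algebraMap K B))
  rw [← IsScalarTower.algebraMap_eq, RingHom.isStandardSmoothOfRelativeDimension_algebraMap]
  exact hf

open AlgebraicGeometry CategoryTheory in
/-- Scheme-level form on an affine chart. -/
theorem smoothOfRelativeDimension_one_Spec (K B : Type u) [Field K] [IsAlgClosed K]
    [CommRing B] [IsDedekindDomain B] [Algebra K B] [Algebra.FiniteType K B]
    (hB : ¬ IsField B) :
    SmoothOfRelativeDimension 1 (Spec.map (CommRingCat.ofHom (algebraMap K B))) := by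
  rw [HasRingHomProperty.Spec_iff (P := @SmoothOfRelativeDimension 1)]
  exact locally_isStandardSmoothOfRelativeDimension_one K B hB

end Fermat.Agent.AV.F1Smooth85

namespace Fermat.Agent.AV.F1Model15

open Fermat.Agent.AV.F1Smooth85

/-- **F1c (i).** A Dedekind domain of finite type over an algebraically closed field is smooth. -/
theorem smoothDedekind : SmoothDedekindStatement := by
  intro K B _ _ _ _ _ _ _
  have hFP : Algebra.FinitePresentation K B :=
    Algebra.FinitePresentation.of_finiteType.mp inferInstance
  by_cases hfield : IsField B
  · -- `B` is a field, hence equal to `K`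
    have hmax : (⊥ : Ideal B).IsMaximal := Ring.isField_iff_maximal_bot.mp hfield
    have hbij := bijective_algebraMap_quotient K B (⊥ : Ideal B)
    have hbij' : Function.Bijective (algebraMap K B) := by
      have h2 : Function.Bijective (RingEquiv.quotientBot B) := (RingEquiv.quotientBot B).bijective
      have := h2.comp hbij
      convert this using 1
      ext x
      simp only [Function.comp_apply]
      rw [IsScalarTower.algebraMap_apply K B (B ⧸ (⊥ : Ideal B)), Ideal.Quotient.algebraMap_eq,
        RingEquiv.quotientBot_mk]
    exact Algebra.Smooth.of_equiv (AlgEquiv.ofBijective (Algebra.ofId K B) hbij')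
  · refine ⟨Algebra.smoothLocus_eq_univ_iff.mp ?_, hFP⟩
    ext p
    simp only [Set.mem_univ, iff_true]
    obtain ⟨m, hm, hpm⟩ := Ideal.exists_le_maximal p.asIdeal p.2.ne_top
    have hm0 : m ≠ ⊥ := Ring.ne_bot_of_isMaximal_of_not_isField hm hfield
    obtain ⟨f, hfm, hf⟩ := exists_away_isStandardSmoothOfRelativeDimension_one K m hm0
    have h1 : Algebra.IsStandardSmooth K (Localization.Away f) := hf.isStandardSmooth
    have h2 : Algebra.Smooth K (Localization.Away f) := inferInstance
    exact (Algebra.basicOpen_subset_smoothLocus_iff_smooth.mpr h2)
      (show p ∈ PrimeSpectrum.basicOpen f from fun h => hfm (hpm h))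

/-- **F1c (ii).** -/
theorem relDimOne : RelDimOneStatement := by
  intro K B F _ _ _ _ _ _ _ _ _ _ hrank
  obtain ⟨s, hs, h⟩ := Algebra.Smooth.exists_span_eq_top_isStandardSmooth K B
  refine ⟨s \ {0}, ?_, ?_⟩
  · rw [← hs]; exact Ideal.span_sdiff_singleton_zero
  · rintro r ⟨hr, hr0⟩
    have hr0 : r ≠ 0 := by simpa using hr0
    have hstd : Algebra.IsStandardSmooth K (Localization.Away r) := h r hr
    have hunit : IsUnit (algebraMap B F r) :=
      IsUnit.mk0 _ (by simpa using (IsFractionRing.injective B F).ne hr0)
    have hle : Submonoid.powers r ≤ nonZeroDivisors B :=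
      Submonoid.powers_le.mpr (mem_nonZeroDivisors_of_ne_zero hr0)
    have : IsDomain (Localization.Away r) :=
      IsLocalization.isDomain_of_le_nonZeroDivisors (Localization.Away r) hle
    let _ : Algebra (Localization.Away r) F :=
      (IsLocalization.Away.lift (S := Localization.Away r) r hunit).toAlgebra
    have hST : IsScalarTower B (Localization.Away r) F := IsScalarTower.of_algebraMap_eq fun x => by
      show algebraMap B F x = (IsLocalization.Away.lift (S := Localization.Away r) r hunit)
        (algebraMap B (Localization.Away r) x)
      rw [IsLocalization.Away.lift_eq]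
    have hST' : IsScalarTower K (Localization.Away r) F := IsScalarTower.of_algebraMap_eq fun x => by
      rw [IsScalarTower.algebraMap_apply K B (Localization.Away r),
        ← IsScalarTower.algebraMap_apply B (Localization.Away r) F,
        ← IsScalarTower.algebraMap_apply K B F]
    have : IsFractionRing (Localization.Away r) F :=
      IsFractionRing.isFractionRing_of_isDomain_of_isLocalization (Submonoid.powers r)
        (Localization.Away r) F
    rw [Algebra.IsStandardSmoothOfRelativeDimension.iff_of_isStandardSmooth,
      rank_kaehler_eq_of_isFractionRing K (Localization.Away r) F]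
    exact_mod_cast Module.rank_eq_one_iff_finrank_eq_one.mpr hrank

end Fermat.Agent.AV.F1Model15
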