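/-
Fermat/Agent/AV/F1Model15/AssemblyAlg.lean  (helper15) -- programme AV, brick F1d, algebra part.

From a chart algebra `alg : ChartAlg K F` to the two-chart ring `alg.chart`, and (for `K`
algebraically closed) a `K`-point of the chart at infinity at which `1/t` vanishes.
-/
import Mathlib
import Fermat.Agent.AV.F1Model15.Interface
import Fermat.Agent.AV.F1Model15.SmoothDedekind85

set_option autoImplicit false

open Polynomial

universe u

noncomputable section

namespace Fermat.Agent.AV.F1Model15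

open Fermat.Agent.Jac

/-- Transport of the `K[X]`-module structure `Module.AEval` along an algebra isomorphism. -/
def aevalEquiv {K R S : Type*} [CommRing K] [CommRing R] [CommRing S] [Algebra K R]
    [Algebra K S] (e : R ≃ₐ[K] S) (r : R) (s : S) (h : e r = s) :
    Module.AEval K R r ≃ₗ[K[X]] Module.AEval K S s :=
  LinearEquiv.ofAEval r ((e.toLinearEquiv : R ≃ₗ[K] S) ≪≫ₗ (Module.AEval.of K S s))
    (fun m => by
      simp only [LinearEquiv.trans_apply, AlgEquiv.toLinearEquiv_apply, smul_eq_mul, map_mul, h]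
      rw [Module.AEval.X_smul_of, smul_eq_mul])

/-- Dedekind domains are stable under ring isomorphisms. -/
theorem isDedekindDomain_of_ringEquiv {R S : Type*} [CommRing R] [CommRing S] (e : R ≃+* S)
    [IsDedekindDomain R] : IsDedekindDomain S := by
  have : IsDomain S := e.symm.toMulEquiv.isDomain R
  have : IsNoetherianRing S := isNoetherianRing_of_ringEquiv R e
  have : Ring.DimensionLEOne S := Ring.DimensionLEOne.of_ringEquiv e.symm
  have : IsIntegrallyClosed S := IsIntegrallyClosed.of_equiv e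
  exact { }

namespace ChartAlg

variable {K F : Type u} [Field K] [Field F] [Algebra K F] (alg : ChartAlg K F)

/-- `B0 → B01`. -/
@[reducible] def algebra0 : Algebra alg.B0 alg.B01 :=
  (Subalgebra.inclusion alg.le0).toRingHom.toAlgebra

/-- `B1 → B01`. -/
@[reducible] def algebra1 : Algebra alg.B1 alg.B01 :=
  (Subalgebra.inclusion alg.le1).toRingHom.toAlgebra

attribute [local instance] algebra0 algebra1

theorem algebraMap0_apply (b : alg.B0) :
    algebraMap alg.B0 alg.B01 b = Subalgebra.inclusion alg.le0 b := rfl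

theorem algebraMap1_apply (b : alg.B1) :
    algebraMap alg.B1 alg.B01 b = Subalgebra.inclusion alg.le1 b := rfl

instance tower0 : IsScalarTower K alg.B0 alg.B01 :=
  IsScalarTower.of_algebraMap_eq fun _ => rfl

instance tower1 : IsScalarTower K alg.B1 alg.B01 :=
  IsScalarTower.of_algebraMap_eq fun _ => rfl

/-- The coordinate, as an element of `B0`. -/
def t0 : alg.B0 := ⟨alg.t, alg.t_mem⟩

/-- The inverse coordinate, as an element of `B1`. -/
def s1 : alg.B1 := ⟨alg.t⁻¹, alg.s_mem⟩

theorem t_ne_zero : alg.t ≠ 0 := fun h => alg.transc (h ▸ isAlgebraic_zero)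

/-- The two-chart ring of a chart algebra. -/
def chart : TwoChart K alg.B0 alg.B1 alg.B01 where
  t := alg.t0
  s := alg.s1
  away0 := alg.away0
  away1 := alg.away1
  ts := Subtype.ext (mul_inv_cancel₀ alg.t_ne_zero)

theorem chart_t : alg.chart.t = alg.t0 := rfl
theorem chart_s : alg.chart.s = alg.s1 := rfl

instance : IsDomain alg.B0 := inferInstance
instance : IsDomain alg.B1 := inferInstance

theorem not_isUnit_s1 : ¬ IsUnit alg.s1 := by
  intro h
  obtain ⟨u, hu⟩ := h.exists_left_inv
  have h1 : (u : F) * alg.t⁻¹ = 1 := congrArg Subtype.val hu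
  have h2 : (u : F) = alg.t := by
    field_simp [alg.t_ne_zero] at h1
    exact h1
  have h3 : alg.t ∈ alg.B1 := h2 ▸ u.2
  have h4 := alg.inter alg.t alg.t_mem h3
  obtain ⟨a, ha⟩ := Algebra.mem_bot.mp h4
  exact alg.transc (ha ▸ isAlgebraic_algebraMap a)

theorem not_isField_B0 : ¬ IsField alg.B0 := by
  intro h
  obtain ⟨u, hu⟩ := h.mul_inv_cancel (a := alg.t0)
    (fun h0 => alg.t_ne_zero (congrArg Subtype.val h0))
  have h1 : alg.t * (u : F) = 1 := congrArg Subtype.val hu
  have h2 : (u : F) = alg.t⁻¹ := eq_inv_of_mul_eq_one_right h1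
  have h3 : alg.t⁻¹ ∈ alg.B0 := h2 ▸ u.2
  have h4 := alg.inter _ h3 alg.s_mem
  obtain ⟨a, ha⟩ := Algebra.mem_bot.mp h4
  have h5 : IsAlgebraic K alg.t⁻¹ := ha ▸ isAlgebraic_algebraMap a
  exact alg.transc (by simpa using h5.inv)

theorem not_isField_B1 : ¬ IsField alg.B1 := by
  intro h
  exact alg.not_isUnit_s1 (by
    let _ := h.toField
    exact isUnit_iff_ne_zero.mpr (fun h0 => inv_ne_zero alg.t_ne_zero (congrArg Subtype.val h0)))

/-- A `K`-point of the chart at infinity at which `s = 1/t` vanishes. -/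
theorem exists_point [IsAlgClosed K] : ∃ P : alg.B1 →ₐ[K] K, P alg.s1 = 0 := by
  have := alg.finiteType1
  have hne : Ideal.span {alg.s1} ≠ ⊤ := by
    rw [Ne, Ideal.span_singleton_eq_top]
    exact alg.not_isUnit_s1
  obtain ⟨m, hm, hle⟩ := Ideal.exists_le_maximal _ hne
  have hbij := Fermat.Agent.AV.F1Smooth85.bijective_algebraMap_quotient K alg.B1 m
  let e : K ≃ₐ[K] (alg.B1 ⧸ m) := AlgEquiv.ofBijective (Algebra.ofId K (alg.B1 ⧸ m)) hbij
  refine ⟨(e.symm : (alg.B1 ⧸ m) →ₐ[K] K).comp (Ideal.Quotient.mkₐ K m), ?_⟩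
  have h0 : Ideal.Quotient.mkₐ K m alg.s1 = 0 := by
    rw [Ideal.Quotient.mkₐ_eq_mk, Ideal.Quotient.eq_zero_iff_mem]
    exact hle (Ideal.subset_span rfl)
  rw [AlgHom.comp_apply, h0, map_zero]

end ChartAlg

end Fermat.Agent.AV.F1Model15
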