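/-
Fermat/Agent/AV/F1Model15/Glue.lean  (helper15) -- programme AV, brick F1b, part 1.

Realisation of a two-chart ring `ch : TwoChart A R0 R1 R01` as a scheme: the pushout `X ch` of
`Spec R0 ← Spec R01 → Spec R1` (open immersions; Mathlib's locally directed gluing), its two
affine charts, their intersection.
-/
import Mathlib
import Fermat.Agent.Jac.Core

set_option autoImplicit false

open CategoryTheory CategoryTheory.Limits AlgebraicGeometry TopologicalSpace Opposite

universe u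

noncomputable section

namespace Fermat.Agent.AV.F1Model15.Glue

open Fermat.Agent.Jac

variable {A R0 R1 R01 : Type u} [CommRing A] [CommRing R0] [CommRing R1] [CommRing R01]
  [Algebra A R0] [Algebra A R1] [Algebra A R01] [Algebra R0 R01] [Algebra R1 R01]
  [IsScalarTower A R0 R01] [IsScalarTower A R1 R01] (ch : TwoChart A R0 R1 R01)

/-- `Spec R01 ⟶ Spec R0`. -/
def j0 (_ch : TwoChart A R0 R1 R01) : Spec (CommRingCat.of R01) ⟶ Spec (CommRingCat.of R0) :=
  Spec.map (CommRingCat.ofHom (algebraMap R0 R01))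

/-- `Spec R01 ⟶ Spec R1`. -/
def j1 (_ch : TwoChart A R0 R1 R01) : Spec (CommRingCat.of R01) ⟶ Spec (CommRingCat.of R1) :=
  Spec.map (CommRingCat.ofHom (algebraMap R1 R01))

instance isOpenImmersion_j0 : IsOpenImmersion (j0 ch) :=
  haveI := ch.away0
  IsOpenImmersion.of_isLocalization ch.t

instance isOpenImmersion_j1 : IsOpenImmersion (j1 ch) :=
  haveI := ch.away1
  IsOpenImmersion.of_isLocalization ch.s

instance isOpenImmersion_span_map {i j : WalkingSpan} (f : i ⟶ j) :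
    IsOpenImmersion ((span (j0 ch) (j1 ch)).map f) := by
  rcases f with _ | k
  · have h : (span (j0 ch) (j1 ch)).map (WidePushoutShape.Hom.id i) = 𝟙 _ :=
      (span (j0 ch) (j1 ch)).map_id i
    rw [h]; infer_instance
  · rcases k with _ | _
    · exact isOpenImmersion_j0 ch
    · exact isOpenImmersion_j1 ch

instance hasPushout : HasPushout (j0 ch) (j1 ch) :=
  inferInstanceAs (HasColimit (span (j0 ch) (j1 ch)))

/-- The scheme glued from `Spec R0` and `Spec R1` along `Spec R01`. -/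
def X : Scheme.{u} := pushout (j0 ch) (j1 ch)

/-- The first chart. -/
def i0 : Spec (CommRingCat.of R0) ⟶ X ch := pushout.inl (j0 ch) (j1 ch)

/-- The second chart. -/
def i1 : Spec (CommRingCat.of R1) ⟶ X ch := pushout.inr (j0 ch) (j1 ch)

theorem condition : j0 ch ≫ i0 ch = j1 ch ≫ i1 ch := pushout.condition

instance isOpenImmersion_i0 : IsOpenImmersion (i0 ch) :=
  inferInstanceAs (IsOpenImmersion (colimit.ι (span (j0 ch) (j1 ch)) WalkingSpan.left))

instance isOpenImmersion_i1 : IsOpenImmersion (i1 ch) :=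
  inferInstanceAs (IsOpenImmersion (colimit.ι (span (j0 ch) (j1 ch)) WalkingSpan.right))

/-- The first chart, as an open of `X`. -/
def U0 : (X ch).Opens := (i0 ch).opensRange

/-- The second chart, as an open of `X`. -/
def U1 : (X ch).Opens := (i1 ch).opensRange

theorem isAffineOpen_U0 : IsAffineOpen (U0 ch) := isAffineOpen_opensRange (i0 ch)

theorem isAffineOpen_U1 : IsAffineOpen (U1 ch) := isAffineOpen_opensRange (i1 ch)

theorem jointly_surjective (x : X ch) :
    (∃ y : Spec (CommRingCat.of R0), i0 ch y = x) ∨ (∃ y : Spec (CommRingCat.of R1), i1 ch y = x) := by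
  obtain ⟨i, xi, h⟩ := Scheme.IsLocallyDirected.ι_jointly_surjective (span (j0 ch) (j1 ch)) x
  rcases i with _ | i
  · left
    refine ⟨j0 ch xi, ?_⟩
    have hw : j0 ch ≫ i0 ch = colimit.ι (span (j0 ch) (j1 ch)) none :=
      colimit.w (span (j0 ch) (j1 ch)) (WidePushoutShape.Hom.init WalkingPair.left)
    rw [← h, ← hw]
    rfl
  · rcases i with _ | _
    · left; exact ⟨xi, h⟩
    · right; exact ⟨xi, h⟩

theorem cover : U0 ch ⊔ U1 ch = ⊤ := by
  ext x
  simp only [Opens.coe_sup, Set.mem_union, SetLike.mem_coe, Opens.coe_top, Set.mem_univ, iff_true]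
  rcases jointly_surjective ch x with ⟨y, rfl⟩ | ⟨y, rfl⟩
  · left; exact ⟨y, rfl⟩
  · right; exact ⟨y, rfl⟩

/-- The overlap chart `Spec R01 ⟶ X`. -/
def i01 : Spec (CommRingCat.of R01) ⟶ X ch := j0 ch ≫ i0 ch

theorem i01_eq' : i01 ch = j1 ch ≫ i1 ch := condition ch

instance isOpenImmersion_i01 : IsOpenImmersion (i01 ch) := by
  unfold i01; infer_instance

theorem eq_iff (y0 : Spec (CommRingCat.of R0)) (y1 : Spec (CommRingCat.of R1)) :
    i0 ch y0 = i1 ch y1 ↔ ∃ z : Spec (CommRingCat.of R01), j0 ch z = y0 ∧ j1 ch z = y1 := by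
  have key := Scheme.IsLocallyDirected.ι_eq_ι_iff (F := span (j0 ch) (j1 ch))
    (i := WalkingSpan.left) (j := WalkingSpan.right) (xi := y0) (xj := y1)
  constructor
  · intro h
    obtain ⟨k, fi, fj, x, h1, h2⟩ := key.mp h
    rcases fi with _ | _
    · rcases fj with _ | _
    · rcases fj with _ | _
      exact ⟨x, h1, h2⟩
  · rintro ⟨z, rfl, rfl⟩
    exact congrArg (fun f : Spec (CommRingCat.of R01) ⟶ X ch => f z) (condition ch)

theorem inter : U0 ch ⊓ U1 ch = (i01 ch).opensRange := by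
  ext x
  simp only [Opens.coe_inf, Set.mem_inter_iff, SetLike.mem_coe]
  constructor
  · rintro ⟨⟨y0, rfl⟩, ⟨y1, h⟩⟩
    obtain ⟨z, hz0, -⟩ := (eq_iff ch y0 y1).mp h.symm
    exact ⟨z, by rw [← hz0]; rfl⟩
  · rintro ⟨z, rfl⟩
    refine ⟨⟨j0 ch z, rfl⟩, ⟨j1 ch z, ?_⟩⟩
    exact (congrArg (fun f : Spec (CommRingCat.of R01) ⟶ X ch => f z) (condition ch)).symm

/-! ### The structure morphism -/

/-- `Spec R0 ⟶ Spec A`. -/
def s0 (_ch : TwoChart A R0 R1 R01) : Spec (CommRingCat.of R0) ⟶ Spec (CommRingCat.of A) :=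
  Spec.map (CommRingCat.ofHom (algebraMap A R0))

/-- `Spec R1 ⟶ Spec A`. -/
def s1 (_ch : TwoChart A R0 R1 R01) : Spec (CommRingCat.of R1) ⟶ Spec (CommRingCat.of A) :=
  Spec.map (CommRingCat.ofHom (algebraMap A R1))

theorem s_condition : j0 ch ≫ s0 ch = j1 ch ≫ s1 ch := by
  unfold j0 j1 s0 s1
  rw [← Spec.map_comp, ← Spec.map_comp, ← CommRingCat.ofHom_comp, ← CommRingCat.ofHom_comp]
  congr 2
  ext a
  simp only [RingHom.comp_apply]
  rw [← IsScalarTower.algebraMap_apply, ← IsScalarTower.algebraMap_apply]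

/-- The structure morphism `X ⟶ Spec A`. -/
def c : X ch ⟶ Spec (CommRingCat.of A) := pushout.desc (s0 ch) (s1 ch) (s_condition ch)

@[reassoc (attr := simp)]
theorem i0_c : i0 ch ≫ c ch = s0 ch := pushout.inl_desc _ _ _

@[reassoc (attr := simp)]
theorem i1_c : i1 ch ≫ c ch = s1 ch := pushout.inr_desc _ _ _

/-- Two morphisms out of `X` agree as soon as they agree on the two charts. -/
theorem hom_ext {Y : Scheme.{u}} {f g : X ch ⟶ Y} (h0 : i0 ch ≫ f = i0 ch ≫ g)
    (h1 : i1 ch ≫ f = i1 ch ≫ g) : f = g := pushout.hom_ext h0 h1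

/-- Morphisms out of `X` are glued from compatible morphisms on the two charts. -/
def desc {Y : Scheme.{u}} (f0 : Spec (CommRingCat.of R0) ⟶ Y) (f1 : Spec (CommRingCat.of R1) ⟶ Y)
    (h : j0 ch ≫ f0 = j1 ch ≫ f1) : X ch ⟶ Y := pushout.desc f0 f1 h

@[reassoc (attr := simp)]
theorem i0_desc {Y : Scheme.{u}} (f0 : Spec (CommRingCat.of R0) ⟶ Y)
    (f1 : Spec (CommRingCat.of R1) ⟶ Y) (h : j0 ch ≫ f0 = j1 ch ≫ f1) :
    i0 ch ≫ desc ch f0 f1 h = f0 := pushout.inl_desc _ _ _

@[reassoc (attr := simp)]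
theorem i1_desc {Y : Scheme.{u}} (f0 : Spec (CommRingCat.of R0) ⟶ Y)
    (f1 : Spec (CommRingCat.of R1) ⟶ Y) (h : j0 ch ≫ f0 = j1 ch ≫ f1) :
    i1 ch ≫ desc ch f0 f1 h = f1 := pushout.inr_desc _ _ _

end Fermat.Agent.AV.F1Model15.Glue
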