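/-
Fermat/Agent/AV/F1Model15/GlueProps.lean  (helper15) -- programme AV, brick F1b, part 3.

Properties of morphisms out of the glued scheme `X ch` that are local at the source can be
checked on the two charts.
-/
import Mathlib
import Fermat.Agent.AV.F1Model15.Glue

set_option autoImplicit false

open CategoryTheory CategoryTheory.Limits AlgebraicGeometry TopologicalSpace Opposite

universe u

noncomputable section

namespace Fermat.Agent.AV.F1Model15.Glue

open Fermat.Agent.Jac

variable {A R0 R1 R01 : Type u} [CommRing A] [CommRing R0] [CommRing R1] [CommRing R01]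
  [Algebra A R0] [Algebra A R1] [Algebra A R01] [Algebra R0 R01] [Algebra R1 R01]
  [IsScalarTower A R0 R01] [IsScalarTower A R1 R01] (ch : TwoChart A R0 R1 R01)

/-- A property of morphisms which is Zariski-local at the source holds for a morphism out of the
glued scheme as soon as it holds on the two charts. -/
theorem of_two_charts (P : MorphismProperty Scheme.{u}) [IsZariskiLocalAtSource P]
    {Y : Scheme.{u}} (f : X ch ⟶ Y) (h0 : P (i0 ch ≫ f)) (h1 : P (i1 ch ≫ f)) : P f := by
  refine IsZariskiLocalAtSource.of_iSup_eq_top (fun b : Bool => cond b (U0 ch) (U1 ch)) ?_ ?_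
  · rw [eq_top_iff, ← cover ch]
    refine sup_le ?_ ?_
    · exact le_iSup (fun b : Bool => cond b (U0 ch) (U1 ch)) true
    · exact le_iSup (fun b : Bool => cond b (U0 ch) (U1 ch)) false
  · intro b
    cases b
    · show P ((i1 ch).opensRange.ι ≫ f)
      rw [← IsOpenImmersion.isoOfRangeEq_inv_fac (i1 ch) (Scheme.Opens.ι _)
        (congr_arg Opens.carrier (i1 ch).opensRange.opensRange_ι.symm), Category.assoc,
        P.cancel_left_of_respectsIso]
      exact h1
    · show P ((i0 ch).opensRange.ι ≫ f)
      rw [← IsOpenImmersion.isoOfRangeEq_inv_fac (i0 ch) (Scheme.Opens.ι _)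
        (congr_arg Opens.carrier (i0 ch).opensRange.opensRange_ι.symm), Category.assoc,
        P.cancel_left_of_respectsIso]
      exact h0

theorem of_two_charts_c (P : MorphismProperty Scheme.{u}) [IsZariskiLocalAtSource P]
    (h0 : P (Spec.map (CommRingCat.ofHom (algebraMap A R0))))
    (h1 : P (Spec.map (CommRingCat.ofHom (algebraMap A R1)))) : P (c ch) := by
  refine of_two_charts ch P (c ch) ?_ ?_
  · rw [i0_c]; exact h0
  · rw [i1_c]; exact h1

end Fermat.Agent.AV.F1Model15.Glue
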