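/-
Fermat/Agent/AV/F1Model15/Assembly.lean  (helper15) -- programme AV, brick F1d.

From a chart algebra `alg : ChartAlg K F` to the model curve: the glued scheme
`alg.C = Glue.X alg.chart`, its `CurveCharts`, smoothness, and the structure `Model K F`
(properness and integrality of the glued scheme are taken as hypotheses here; they are proved
in `Proper85.lean` / `Integral94.lean` and plugged in in `Main.lean`).
-/
import Mathlib
import Fermat.Agent.AV.F1Model15.Interface
import Fermat.Agent.AV.F1Model15.GlueSections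
import Fermat.Agent.AV.F1Model15.GlueProps
import Fermat.Agent.AV.F1Model15.AssemblyAlg
import Fermat.Agent.Jac.BridgeCharts33

set_option autoImplicit false

open CategoryTheory CategoryTheory.Limits AlgebraicGeometry TopologicalSpace Opposite
open NeronModelInfra Polynomial

universe u

noncomputable section

namespace Fermat.Agent.AV.F1Model15

open Fermat.Agent.Jac

namespace ChartAlg

variable {K F : Type u} [Field K] [Field F] [Algebra K F] (alg : ChartAlg K F)

attribute [local instance] algebra0 algebra1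

/-- The model curve of a chart algebra. -/
abbrev C : Scheme.{u} := Glue.X alg.chart

/-- Its structure morphism. -/
abbrev str : alg.C ⟶ Spec (CommRingCat.of K) := Glue.c alg.chart

/-! ### The chart rings -/

/-- `B0 ≃ Γ(C, U0)`. -/
def re0 : alg.B0 ≃+* Γ(alg.C, Glue.U0 alg.chart) :=
  (Glue.e0 alg.chart).symm.commRingCatIsoToRingEquiv

/-- `B1 ≃ Γ(C, U1)`. -/
def re1 : alg.B1 ≃+* Γ(alg.C, Glue.U1 alg.chart) :=
  (Glue.e1 alg.chart).symm.commRingCatIsoToRingEquiv

/-- `B01 ≃ Γ(C, U0 ⊓ U1)`. -/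
def re01 : alg.B01 ≃+* Γ(alg.C, Glue.U0 alg.chart ⊓ Glue.U1 alg.chart) :=
  (Glue.e01 alg.chart).symm.commRingCatIsoToRingEquiv

theorem e0_re0 (b : alg.B0) : (Glue.e0 alg.chart).hom (alg.re0 b) = b :=
  congrArg (fun g : CommRingCat.of alg.B0 ⟶ CommRingCat.of alg.B0 => g.hom b)
    (Glue.e0 alg.chart).inv_hom_id

theorem e1_re1 (b : alg.B1) : (Glue.e1 alg.chart).hom (alg.re1 b) = b :=
  congrArg (fun g : CommRingCat.of alg.B1 ⟶ CommRingCat.of alg.B1 => g.hom b)
    (Glue.e1 alg.chart).inv_hom_id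

theorem e01_re01 (b : alg.B01) : (Glue.e01 alg.chart).hom (alg.re01 b) = b :=
  congrArg (fun g : CommRingCat.of alg.B01 ⟶ CommRingCat.of alg.B01 => g.hom b)
    (Glue.e01 alg.chart).inv_hom_id

theorem re0_e0 (x : Γ(alg.C, Glue.U0 alg.chart)) : alg.re0 ((Glue.e0 alg.chart).hom x) = x :=
  congrArg (fun g : Γ(alg.C, Glue.U0 alg.chart) ⟶ Γ(alg.C, Glue.U0 alg.chart) => g.hom x)
    (Glue.e0 alg.chart).hom_inv_id

theorem re1_e1 (x : Γ(alg.C, Glue.U1 alg.chart)) : alg.re1 ((Glue.e1 alg.chart).hom x) = x :=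
  congrArg (fun g : Γ(alg.C, Glue.U1 alg.chart) ⟶ Γ(alg.C, Glue.U1 alg.chart) => g.hom x)
    (Glue.e1 alg.chart).hom_inv_id

theorem re01_e01 (x : Γ(alg.C, Glue.U0 alg.chart ⊓ Glue.U1 alg.chart)) :
    alg.re01 ((Glue.e01 alg.chart).hom x) = x :=
  congrArg (fun g : Γ(alg.C, Glue.U0 alg.chart ⊓ Glue.U1 alg.chart) ⟶
      Γ(alg.C, Glue.U0 alg.chart ⊓ Glue.U1 alg.chart) => g.hom x)
    (Glue.e01 alg.chart).hom_inv_id

theorem re0_algebraMap (a : K) :
    alg.re0 (algebraMap K alg.B0 a) = sectionsRingHom alg.str (Glue.U0 alg.chart) a := by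
  rw [← Glue.e0_sectionsRingHom alg.chart a, re0_e0]

theorem re1_algebraMap (a : K) :
    alg.re1 (algebraMap K alg.B1 a) = sectionsRingHom alg.str (Glue.U1 alg.chart) a := by
  rw [← Glue.e1_sectionsRingHom alg.chart a, re1_e1]

theorem re01_algebraMap (a : K) :
    alg.re01 (algebraMap K alg.B01 a) =
      sectionsRingHom alg.str (Glue.U0 alg.chart ⊓ Glue.U1 alg.chart) a := by
  rw [← Glue.e01_sectionsRingHom alg.chart a, re01_e01]

theorem re0_t0 : alg.re0 alg.t0 = Glue.tX alg.chart := rfl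

theorem re1_s1 : alg.re1 alg.s1 = Glue.sX alg.chart := rfl

/-- Restriction to the overlap corresponds to the inclusion `B0 ⊆ B01`. -/
theorem re01_inclusion0 (b : alg.B0) :
    alg.re01 (Subalgebra.inclusion alg.le0 b) =
      (alg.C.presheaf.map (homOfLE (inf_le_left :
        Glue.U0 alg.chart ⊓ Glue.U1 alg.chart ≤ Glue.U0 alg.chart)).op).hom (alg.re0 b) := by
  have h := congrArg (fun g : Γ(alg.C, Glue.U0 alg.chart) ⟶ CommRingCat.of alg.B01 =>
    g.hom (alg.re0 b)) (Glue.res0 alg.chart)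
  simp only [CommRingCat.hom_comp, RingHom.comp_apply, CommRingCat.hom_ofHom] at h
  rw [e0_re0] at h
  rw [← alg.algebraMap0_apply, ← h, re01_e01]

/-- Restriction to the overlap corresponds to the inclusion `B1 ⊆ B01`. -/
theorem re01_inclusion1 (b : alg.B1) :
    alg.re01 (Subalgebra.inclusion alg.le1 b) =
      (alg.C.presheaf.map (homOfLE (inf_le_right :
        Glue.U0 alg.chart ⊓ Glue.U1 alg.chart ≤ Glue.U1 alg.chart)).op).hom (alg.re1 b) := by
  have h := congrArg (fun g : Γ(alg.C, Glue.U1 alg.chart) ⟶ CommRingCat.of alg.B01 =>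
    g.hom (alg.re1 b)) (Glue.res1 alg.chart)
  simp only [CommRingCat.hom_comp, RingHom.comp_apply, CommRingCat.hom_ofHom] at h
  rw [e1_re1] at h
  rw [← alg.algebraMap1_apply, ← h, re01_e01]

/-! ### Global functions are constant -/

theorem map_sectionsRingHom {U V : alg.C.Opens} (h : U ≤ V) (a : K) :
    (alg.C.presheaf.map (homOfLE h).op).hom (sectionsRingHom alg.str V a) =
      sectionsRingHom alg.str U a :=
  Fermat.Agent.Jac.BridgeCharts33.map_secHom alg.str h a

theorem global_const : Function.Bijective (sectionsRingHom alg.str (⊤ : alg.C.Opens)) := by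
  constructor
  · have : Nontrivial Γ(alg.C, (⊤ : alg.C.Opens)) :=
      RingHom.domain_nontrivial ((alg.re0.symm : _ →+* alg.B0).comp
        (alg.C.presheaf.map (homOfLE (le_top : Glue.U0 alg.chart ≤ ⊤)).op).hom)
    exact RingHom.injective _
  · intro g
    set g0 := (alg.C.presheaf.map (homOfLE (le_top : Glue.U0 alg.chart ≤ ⊤)).op).hom g with hg0
    set g1 := (alg.C.presheaf.map (homOfLE (le_top : Glue.U1 alg.chart ≤ ⊤)).op).hom g with hg1
    have h01 : Subalgebra.inclusion alg.le0 (alg.re0.symm g0) =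
        Subalgebra.inclusion alg.le1 (alg.re1.symm g1) := by
      apply alg.re01.injective
      rw [re01_inclusion0, re01_inclusion1, RingEquiv.apply_symm_apply,
        RingEquiv.apply_symm_apply, hg0, hg1]
      change (alg.C.presheaf.map _ ≫ alg.C.presheaf.map _).hom g =
        (alg.C.presheaf.map _ ≫ alg.C.presheaf.map _).hom g
      rw [← Functor.map_comp, ← Functor.map_comp]
      rfl
    have hF : ((alg.re0.symm g0 : alg.B0) : F) = ((alg.re1.symm g1 : alg.B1) : F) :=
      congrArg Subtype.val h01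
    have hb : ((alg.re0.symm g0 : alg.B0) : F) ∈ (⊥ : Subalgebra K F) :=
      alg.inter _ (alg.re0.symm g0).2 (hF ▸ (alg.re1.symm g1).2)
    obtain ⟨a, ha⟩ := Algebra.mem_bot.mp hb
    have ha0 : algebraMap K alg.B0 a = alg.re0.symm g0 := Subtype.ext ha
    have ha1 : algebraMap K alg.B1 a = alg.re1.symm g1 := Subtype.ext (ha.trans hF)
    refine ⟨a, ?_⟩
    refine TopCat.Sheaf.eq_of_locally_eq₂ alg.C.sheaf
      (homOfLE (le_top : Glue.U0 alg.chart ≤ ⊤)) (homOfLE (le_top : Glue.U1 alg.chart ≤ ⊤))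
      (Glue.cover alg.chart).ge _ _ ?_ ?_
    · refine (alg.map_sectionsRingHom le_top a).trans ?_
      rw [← re0_algebraMap, ha0, RingEquiv.apply_symm_apply]
      rfl
    · refine (alg.map_sectionsRingHom le_top a).trans ?_
      rw [← re1_algebraMap, ha1, RingEquiv.apply_symm_apply]
      rfl

/-! ### The pointed curve with its charts -/

variable (P : alg.B1 →ₐ[K] K)

/-- The base point. -/
def eps : SchemeHomOver (𝟙 (Spec (CommRingCat.of K))) alg.str :=
  ⟨Glue.pt alg.chart P, Glue.pt_c alg.chart P⟩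

/-- `B0 ≃ₐ[K] Γ(C, U0)` for the `sectionsAlgebra` structure. -/
def ae0 : @AlgEquiv K alg.B0 Γ(alg.C, Glue.U0 alg.chart) _ _ _ _
    (sectionsAlgebra alg.str (Glue.U0 alg.chart)) :=
  letI := sectionsAlgebra alg.str (Glue.U0 alg.chart)
  AlgEquiv.ofRingEquiv (f := alg.re0) alg.re0_algebraMap

/-- `B1 ≃ₐ[K] Γ(C, U1)` for the `sectionsAlgebra` structure. -/
def ae1 : @AlgEquiv K alg.B1 Γ(alg.C, Glue.U1 alg.chart) _ _ _ _
    (sectionsAlgebra alg.str (Glue.U1 alg.chart)) :=
  letI := sectionsAlgebra alg.str (Glue.U1 alg.chart)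
  AlgEquiv.ofRingEquiv (f := alg.re1) alg.re1_algebraMap

/-- The charts of the model curve. -/
def curveCharts (hP : P alg.s1 = 0) : CurveCharts alg.str (alg.eps P) where
  U0 := Glue.U0 alg.chart
  U1 := Glue.U1 alg.chart
  affine0 := Glue.isAffineOpen_U0 alg.chart
  affine1 := Glue.isAffineOpen_U1 alg.chart
  cover := Glue.cover alg.chart
  t := Glue.tX alg.chart
  s := Glue.sX alg.chart
  inter0 := Glue.inter0 alg.chart
  inter1 := Glue.inter1 alg.chart
  ts := Glue.ts alg.chart
  base_mem := Glue.pt_preimage_U1 alg.chart P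
  s_base := Glue.pt_app_sX alg.chart P hP
  finite0 := by
    let := sectionsAlgebra alg.str (Glue.U0 alg.chart)
    have h : Module.Finite K[X] (Module.AEval K alg.B0 alg.t0) := alg.finite0
    exact Module.Finite.equiv (aevalEquiv alg.ae0 alg.t0 (Glue.tX alg.chart) alg.re0_t0)
  free0 := by
    let := sectionsAlgebra alg.str (Glue.U0 alg.chart)
    have h : Module.Free K[X] (Module.AEval K alg.B0 alg.t0) := alg.free0
    exact Module.Free.of_equiv (aevalEquiv alg.ae0 alg.t0 (Glue.tX alg.chart) alg.re0_t0)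
  finite1 := by
    let := sectionsAlgebra alg.str (Glue.U1 alg.chart)
    have h : Module.Finite K[X] (Module.AEval K alg.B1 alg.s1) := alg.finite1
    exact Module.Finite.equiv (aevalEquiv alg.ae1 alg.s1 (Glue.sX alg.chart) alg.re1_s1)
  free1 := by
    let := sectionsAlgebra alg.str (Glue.U1 alg.chart)
    have h : Module.Free K[X] (Module.AEval K alg.B1 alg.s1) := alg.free1
    exact Module.Free.of_equiv (aevalEquiv alg.ae1 alg.s1 (Glue.sX alg.chart) alg.re1_s1)
  dedekind0 := by
    have := alg.dedekind0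
    exact isDedekindDomain_of_ringEquiv alg.re0
  dedekind1 := by
    have := alg.dedekind1
    exact isDedekindDomain_of_ringEquiv alg.re1
  global_const := alg.global_const

/-! ### Smoothness -/

theorem smooth [IsAlgClosed K] : SmoothOfRelativeDimension 1 alg.str := by
  have := alg.dedekind0
  have := alg.dedekind1
  have := alg.finiteType0
  have := alg.finiteType1
  exact Glue.of_two_charts_c alg.chart (@SmoothOfRelativeDimension 1)
    (Fermat.Agent.AV.F1Smooth85.smoothOfRelativeDimension_one_Spec K alg.B0 alg.not_isField_B0)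
    (Fermat.Agent.AV.F1Smooth85.smoothOfRelativeDimension_one_Spec K alg.B1 alg.not_isField_B1)

/-! ### The model -/

section Model

variable (hP : P alg.s1 = 0)

/-- `B0 ≃ₐ[K] cc.B0`. -/
def me0 : alg.B0 ≃ₐ[K] (alg.curveCharts P hP).B0 :=
  AlgEquiv.ofRingEquiv (f := (alg.re0 : alg.B0 ≃+* (alg.curveCharts P hP).B0)) (fun a => by
    refine (alg.re0_algebraMap a).trans ?_
    exact (alg.map_sectionsRingHom le_top a).symm)

/-- `B1 ≃ₐ[K] cc.B1`. -/
def me1 : alg.B1 ≃ₐ[K] (alg.curveCharts P hP).B1 :=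
  AlgEquiv.ofRingEquiv (f := (alg.re1 : alg.B1 ≃+* (alg.curveCharts P hP).B1)) (fun a => by
    refine (alg.re1_algebraMap a).trans ?_
    exact (alg.map_sectionsRingHom le_top a).symm)

/-- `B01 ≃ₐ[K] cc.B01`. -/
def me01 : alg.B01 ≃ₐ[K] (alg.curveCharts P hP).B01 :=
  AlgEquiv.ofRingEquiv (f := (alg.re01 : alg.B01 ≃+* (alg.curveCharts P hP).B01)) (fun a => by
    refine (alg.re01_algebraMap a).trans ?_
    exact (alg.map_sectionsRingHom le_top a).symm)

/-- The model curve of a chart algebra, given properness and integrality of the glued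
scheme. -/
def model [IsAlgClosed K] (hproper : IsProper alg.str) (hint : IsIntegral alg.C) :
    Model K F where
  C := alg.C
  c := alg.str
  isProper := hproper
  smooth := alg.smooth
  isIntegral := hint
  ε := alg.eps P
  cc := alg.curveCharts P hP
  alg := alg
  e0 := alg.me0 P hP
  e1 := alg.me1 P hP
  e01 := alg.me01 P hP
  e01_res0 := alg.re01_inclusion0
  e01_res1 := alg.re01_inclusion1
  e0_t := rfl
  e1_s := rfl

end Model

end ChartAlg

end Fermat.Agent.AV.F1Model15
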