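/-
Fermat/Agent/AV/F1Model15/Integral15.lean  (helper15) -- programme AV, brick F1b, part 4.

The scheme glued from two integral affine charts along a nonempty overlap is integral.
-/
import Mathlib
import Fermat.Agent.AV.F1Model15.Glue

set_option autoImplicit false

open CategoryTheory CategoryTheory.Limits AlgebraicGeometry TopologicalSpace Opposite

universe u

noncomputable section

namespace Fermat.Agent.AV.F1Model15.Glue

open Fermat.Agent.Jac

variable {A R0 R1 R01 : Type u} [CommRing A] [CommRing R0] [CommRing R1] [CommRing R01]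
  [Algebra A R0] [Algebra A R1] [Algebra A R01] [Algebra R0 R01] [Algebra R1 R01]
  [IsScalarTower A R0 R01] [IsScalarTower A R1 R01] (ch : TwoChart A R0 R1 R01)

theorem isReduced_X [IsReduced R0] [IsReduced R1] : AlgebraicGeometry.IsReduced (X ch) := by
  apply +allowSynthFailures isReduced_of_isReduced_stalk
  intro x
  rcases jointly_surjective ch x with ⟨y, rfl⟩ | ⟨y, rfl⟩
  · exact isReduced_of_injective ((i0 ch).stalkMap y).hom
      (asIso ((i0 ch).stalkMap y)).commRingCatIsoToRingEquiv.injective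
  · exact isReduced_of_injective ((i1 ch).stalkMap y).hom
      (asIso ((i1 ch).stalkMap y)).commRingCatIsoToRingEquiv.injective

theorem isIrreducible_U0 [IsDomain R0] : IsIrreducible ((U0 ch : (X ch).Opens) : Set (X ch)) := by
  have h : ((U0 ch : (X ch).Opens) : Set (X ch)) = (i0 ch) '' Set.univ := by
    rw [Set.image_univ]; rfl
  rw [h]
  exact (IrreducibleSpace.isIrreducible_univ _).image _ (i0 ch).continuous.continuousOn

theorem isIrreducible_U1 [IsDomain R1] : IsIrreducible ((U1 ch : (X ch).Opens) : Set (X ch)) := by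
  have h : ((U1 ch : (X ch).Opens) : Set (X ch)) = (i1 ch) '' Set.univ := by
    rw [Set.image_univ]; rfl
  rw [h]
  exact (IrreducibleSpace.isIrreducible_univ _).image _ (i1 ch).continuous.continuousOn

theorem nonempty_inter [Nontrivial R01] :
    (((U0 ch : (X ch).Opens) : Set (X ch)) ∩ ((U1 ch : (X ch).Opens) : Set (X ch))).Nonempty := by
  obtain ⟨z⟩ : Nonempty (Spec (CommRingCat.of R01)) := inferInstance
  refine ⟨i01 ch z, ?_⟩
  have : i01 ch z ∈ (U0 ch ⊓ U1 ch : (X ch).Opens) := by
    rw [inter]; exact ⟨z, rfl⟩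
  exact this

theorem irreducibleSpace_X [IsDomain R0] [IsDomain R1] [Nontrivial R01] :
    IrreducibleSpace (X ch) := by
  have hU0 := isIrreducible_U0 ch
  have hU1 := isIrreducible_U1 ch
  have hne := nonempty_inter ch
  -- every nonempty open meets `U0`
  have key : ∀ u : Set (X ch), IsOpen u → u.Nonempty →
      (((U0 ch : (X ch).Opens) : Set (X ch)) ∩ u).Nonempty := by
    intro u hu ⟨x, hx⟩
    have hx' : x ∈ (U0 ch ⊔ U1 ch : (X ch).Opens) := by rw [cover]; trivial
    rcases hx' with h0 | h1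
    · exact ⟨x, h0, hx⟩
    · have := hU1.2 u (U0 ch : (X ch).Opens) hu (U0 ch).isOpen ⟨x, h1, hx⟩
        (by rw [Set.inter_comm]; exact hne)
      obtain ⟨y, -, hyu, hy0⟩ := this
      exact ⟨y, hy0, hyu⟩
  refine @IrreducibleSpace.mk _ _ ⟨?_⟩ ?_
  · intro u v hu hv hu' hv'
    obtain ⟨x, _, hxu⟩ := hu'
    obtain ⟨y, _, hyv⟩ := hv'
    obtain ⟨z, _, hz⟩ := hU0.2 u v hu hv (key u hu ⟨x, hxu⟩) (key v hv ⟨y, hyv⟩)
    exact ⟨z, trivial, hz⟩
  · obtain ⟨x, _, _⟩ := hne
    exact ⟨x⟩

/-- **F1b-INTEGRAL.** -/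
theorem isIntegral_X [IsDomain R0] [IsDomain R1] [Nontrivial R01] : IsIntegral (X ch) := by
  have := isReduced_X ch
  have := irreducibleSpace_X ch
  exact isIntegral_of_irreducibleSpace_of_isReduced _

end Fermat.Agent.AV.F1Model15.Glue
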