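/-
Fermat/Agent/AV/F1Model15/Proper85.lean (helper85) -- programme AV, brick F1b-PROPER.
The two-chart scheme `Glue.X ch` is proper over the base as soon as the chart rings are of finite
type and integral over the coordinate lines `k[t]`, `k[s]`.  Valuative criterion.
-/
import Mathlib
import Fermat.Agent.AV.F1Model15.Glue

set_option autoImplicit false

open CategoryTheory CategoryTheory.Limits AlgebraicGeometry TopologicalSpace Opposite Polynomial

universe u

namespace Fermat.Agent.AV.F1Model15.Proper85

section Algebra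

variable {k Ra O L : Type*} [CommRing k] [CommRing Ra] [Algebra k Ra] [CommRing O] [IsDomain O]
  [ValuationRing O] [Field L] [Algebra O L] [IsFractionRing O L]

/-- If `Ra` is integral over `k[ta]`, `φ : Ra → L` is compatible with `ψ : k → O` and sends `ta`
into the valuation ring `O`, then `φ` sends all of `Ra` into `O`. -/
theorem mem_range_of_isIntegral (ta : Ra) (hint : (aeval (R := k) ta).toRingHom.IsIntegral)
    (φ : Ra →+* L) (ψ : k →+* O) (hcomp : φ.comp (algebraMap k Ra) = (algebraMap O L).comp ψ)
    (hmem : φ ta ∈ (algebraMap O L).range) (r : Ra) : φ r ∈ (algebraMap O L).range := by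
  obtain ⟨τ, hτ⟩ := hmem
  let θ : k[X] →+* O := eval₂RingHom ψ τ
  have hθ : (algebraMap O L).comp θ = φ.comp (aeval (R := k) ta).toRingHom := by
    apply Polynomial.ringHom_ext
    · intro a
      simp only [RingHom.comp_apply, θ, coe_eval₂RingHom, eval₂_C, AlgHom.toRingHom_eq_coe,
        RingHom.coe_coe, aeval_C]
      exact (RingHom.congr_fun hcomp a).symm
    · simp only [RingHom.comp_apply, θ, coe_eval₂RingHom, eval₂_X, AlgHom.toRingHom_eq_coe,
        RingHom.coe_coe, aeval_X]
      exact hτ
  obtain ⟨p, hp, hpr⟩ := hint r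
  have hint' : IsIntegral O (φ r) := by
    refine ⟨p.map θ, hp.map θ, ?_⟩
    rw [eval₂_map, hθ, ← Polynomial.hom_eval₂, hpr, map_zero]
  obtain ⟨y, hy⟩ := IsIntegrallyClosed.algebraMap_eq_of_integral hint'
  exact ⟨y, hy⟩

omit [IsDomain O] [ValuationRing O] in
/-- A ring hom into the fraction field with values in `O` factors through `O`. -/
theorem exists_ringHom_of_forall_mem_range {R : Type*} [CommRing R] (φ : R →+* L)
    (h : ∀ r, φ r ∈ (algebraMap O L).range) :
    ∃ φO : R →+* O, (algebraMap O L).comp φO = φ := by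
  have hinj : Function.Injective (algebraMap O L) := IsFractionRing.injective O L
  let e : O ≃+* (algebraMap O L).range := RingEquiv.ofBijective (algebraMap O L).rangeRestrict
    ⟨fun x y hxy => hinj (by simpa using congrArg Subtype.val hxy),
      (algebraMap O L).rangeRestrict_surjective⟩
  refine ⟨e.symm.toRingHom.comp (φ.codRestrict _ h), ?_⟩
  ext r
  simp only [RingHom.comp_apply, RingEquiv.toRingHom_eq_coe, RingHom.coe_coe]
  have : (algebraMap O L).rangeRestrict (e.symm (φ.codRestrict _ h r)) = φ.codRestrict _ h r :=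
    e.apply_symm_apply _
  simpa using congrArg Subtype.val this

end Algebra

section Switch

variable {Ra Rb Rab L : Type*} [CommRing Ra] [CommRing Rb] [CommRing Rab] [Algebra Ra Rab]
  [Algebra Rb Rab] [Field L]

/-- Passing to the other chart: if `φ ta ≠ 0` then `φ` extends to the overlap ring and restricts
to the other chart ring, where the coordinate goes to `(φ ta)⁻¹`. -/
theorem exists_switch (ta : Ra) (tb : Rb) [IsLocalization.Away ta Rab]
    (ts : algebraMap Ra Rab ta * algebraMap Rb Rab tb = 1) (φ : Ra →+* L) (h0 : φ ta ≠ 0) :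
    ∃ φab : Rab →+* L, φab.comp (algebraMap Ra Rab) = φ ∧
      (φab.comp (algebraMap Rb Rab)) tb = (φ ta)⁻¹ := by
  have hu : IsUnit (φ ta) := IsUnit.mk0 _ h0
  refine ⟨IsLocalization.Away.lift ta hu, ?_, ?_⟩
  · ext r; simp
  · have h1 : (IsLocalization.Away.lift ta hu : Rab →+* L) (algebraMap Ra Rab ta) = φ ta :=
      IsLocalization.Away.lift_eq ta hu ta
    have h2 := congrArg (IsLocalization.Away.lift ta hu : Rab →+* L) ts
    rw [map_mul, h1, map_one] at h2
    rw [RingHom.comp_apply]
    exact eq_inv_of_mul_eq_one_right h2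

end Switch


section Core

variable {X : Scheme.{u}} {k : Type u} [CommRing k] {c : X ⟶ Spec (CommRingCat.of k)}

/-- the ring map `k → O` underlying the bottom arrow of a valuative square over `Spec k` -/
noncomputable def baseHom (S : ValuativeCommSq c) : k →+* S.R := (Spec.preimage S.i₂).hom

theorem spec_baseHom (S : ValuativeCommSq c) :
    Spec.map (CommRingCat.ofHom (baseHom S)) = S.i₂ := by
  unfold baseHom
  rw [CommRingCat.ofHom_hom, Spec.map_preimage]

/-- compatibility of a chart factorisation of the generic point with the base -/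
theorem comp_eq_of_factor {Ra : Type u} [CommRing Ra] [Algebra k Ra]
    (a : Spec (CommRingCat.of Ra) ⟶ X)
    (hac : a ≫ c = Spec.map (CommRingCat.ofHom (algebraMap k Ra)))
    (S : ValuativeCommSq c) (φ : Ra →+* S.K)
    (hφ : S.i₁ = Spec.map (CommRingCat.ofHom φ) ≫ a) :
    φ.comp (algebraMap k Ra) = (algebraMap S.R S.K).comp (baseHom S) := by
  have hw := S.commSq.w
  rw [hφ, Category.assoc, hac, ← spec_baseHom S, ← Spec.map_comp, ← Spec.map_comp] at hw
  have := Spec.map_injective hw
  have h2 := congrArg CommRingCat.Hom.hom this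
  simpa using h2

/-- **Core of the existence part.** -/
theorem hasLift_of_mem_range {Ra : Type u} [CommRing Ra] [Algebra k Ra]
    (a : Spec (CommRingCat.of Ra) ⟶ X)
    (hac : a ≫ c = Spec.map (CommRingCat.ofHom (algebraMap k Ra)))
    (ta : Ra) (hint : (aeval (R := k) ta).toRingHom.IsIntegral)
    (S : ValuativeCommSq c) (φ : Ra →+* S.K)
    (hφ : S.i₁ = Spec.map (CommRingCat.ofHom φ) ≫ a)
    (hmem : φ ta ∈ (algebraMap S.R S.K).range) : S.commSq.HasLift := by
  have hcomp := comp_eq_of_factor a hac S φ hφ
  obtain ⟨φO, hφO⟩ := exists_ringHom_of_forall_mem_range (O := S.R) φ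
    (mem_range_of_isIntegral ta hint φ (baseHom S) hcomp hmem)
  refine CommSq.HasLift.mk' ⟨Spec.map (CommRingCat.ofHom φO) ≫ a, ?_, ?_⟩
  · rw [hφ, ← Category.assoc, ← Spec.map_comp, ← CommRingCat.ofHom_comp, hφO]
  · rw [Category.assoc, hac, ← Spec.map_comp, ← CommRingCat.ofHom_comp, ← spec_baseHom S]
    congr 2
    ext x
    apply IsFractionRing.injective S.R S.K
    have h1 := RingHom.congr_fun hcomp x
    have h2 := RingHom.congr_fun hφO (algebraMap k Ra x)
    simp only [RingHom.comp_apply] at h1 h2 ⊢
    rw [h2, h1]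

end Core

section Pair

variable {X : Scheme.{u}} {k : Type u} [CommRing k] (c : X ⟶ Spec (CommRingCat.of k))

/-- An (ordered) pair of affine charts of `X` over `Spec k`, glued like the two charts of a curve
over the projective line.  The structure is symmetric: see `ChartPair.swap`-like instantiations
below. -/
structure ChartPair (Ra Rb Rab : Type u) [CommRing Ra] [CommRing Rb] [CommRing Rab]
    [Algebra k Ra] [Algebra k Rb] [Algebra Ra Rab] [Algebra Rb Rab] where
  a : Spec (CommRingCat.of Ra) ⟶ X
  b : Spec (CommRingCat.of Rb) ⟶ X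
  oa : IsOpenImmersion a
  ob : IsOpenImmersion b
  cond : Spec.map (CommRingCat.ofHom (algebraMap Ra Rab)) ≫ a =
    Spec.map (CommRingCat.ofHom (algebraMap Rb Rab)) ≫ b
  inter : Set.range a ∩ Set.range b ⊆
    Set.range (Spec.map (CommRingCat.ofHom (algebraMap Ra Rab)) ≫ a)
  ac : a ≫ c = Spec.map (CommRingCat.ofHom (algebraMap k Ra))
  bc : b ≫ c = Spec.map (CommRingCat.ofHom (algebraMap k Rb))
  ta : Ra
  tb : Rb
  away_a : IsLocalization.Away ta Rab
  ts : algebraMap Ra Rab ta * algebraMap Rb Rab tb = 1
  int_a : (aeval (R := k) ta).toRingHom.IsIntegral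
  int_b : (aeval (R := k) tb).toRingHom.IsIntegral

variable {c} {Ra Rb Rab : Type u} [CommRing Ra] [CommRing Rb] [CommRing Rab]
    [Algebra k Ra] [Algebra k Rb] [Algebra Ra Rab] [Algebra Rb Rab]

/-- Existence of a lift when the generic point lands in the first chart. -/
theorem ChartPair.hasLift_of_range_subset (P : ChartPair c Ra Rb Rab) (S : ValuativeCommSq c)
    (h : Set.range S.i₁ ⊆ Set.range P.a) : S.commSq.HasLift := by
  have := P.oa
  have := P.away_a
  let f := IsOpenImmersion.lift P.a S.i₁ h
  have hf : f ≫ P.a = S.i₁ := IsOpenImmersion.lift_fac _ _ _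
  let φ : Ra →+* S.K := (Spec.preimage f).hom
  have hφ : S.i₁ = Spec.map (CommRingCat.ofHom φ) ≫ P.a := by
    rw [← hf]; simp only [φ, CommRingCat.ofHom_hom, Spec.map_preimage]
  by_cases hmem : φ P.ta ∈ (algebraMap S.R S.K).range
  · exact hasLift_of_mem_range P.a P.ac P.ta P.int_a S φ hφ hmem
  · have h0 : φ P.ta ≠ 0 := by
      intro h0; apply hmem; rw [h0]; exact ⟨0, map_zero _⟩
    have hinv : (φ P.ta)⁻¹ ∈ (algebraMap S.R S.K).range := by
      rcases ValuationRing.isInteger_or_isInteger S.R (φ P.ta) with ⟨y, hy⟩ | ⟨y, hy⟩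
      · exact (hmem ⟨y, hy⟩).elim
      · exact ⟨y, hy⟩
    obtain ⟨φab, h1, h2⟩ := exists_switch P.ta P.tb P.ts φ h0
    have hφb : S.i₁ = Spec.map (CommRingCat.ofHom (φab.comp (algebraMap Rb Rab))) ≫ P.b := by
      rw [hφ, ← h1, CommRingCat.ofHom_comp, CommRingCat.ofHom_comp, Spec.map_comp, Spec.map_comp,
        Category.assoc, Category.assoc, P.cond]
    exact hasLift_of_mem_range P.b P.bc P.tb P.int_b S _ hφb (by rw [h2]; exact hinv)

/-- A morphism from the spectrum of a local ring factors through any open immersion whose range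
contains the image of the closed point. -/
theorem exists_factor_of_closedPoint_mem {O Ra : Type u} [CommRing O] [IsLocalRing O] [CommRing Ra]
    (a : Spec (CommRingCat.of Ra) ⟶ X) [IsOpenImmersion a]
    (l : Spec (CommRingCat.of O) ⟶ X)
    (h : l (IsLocalRing.closedPoint O) ∈ Set.range a) :
    ∃ lam : Ra →+* O, l = Spec.map (CommRingCat.ofHom lam) ≫ a := by
  have htop : l ⁻¹ᵁ a.opensRange = ⊤ :=
    Scheme.preimage_eq_top_of_closedPoint_mem (R := CommRingCat.of O) l (U := a.opensRange) h
  have hrange : Set.range l ⊆ Set.range a := by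
    rintro _ ⟨y, rfl⟩
    have : y ∈ l ⁻¹ᵁ a.opensRange := by rw [htop]; trivial
    exact this
  refine ⟨(Spec.preimage (IsOpenImmersion.lift a l hrange)).hom, ?_⟩
  rw [CommRingCat.ofHom_hom, Spec.map_preimage, IsOpenImmersion.lift_fac]

/-- Two lifts through the same chart agree. -/
theorem eq_of_factor_same {O L Ra : Type u} [CommRing O] [Field L] [Algebra O L]
    [IsFractionRing O L] [CommRing Ra]
    (a : Spec (CommRingCat.of Ra) ⟶ X) [Mono a] (lam lam' : Ra →+* O)
    (hgen : Spec.map (CommRingCat.ofHom (algebraMap O L)) ≫ Spec.map (CommRingCat.ofHom lam) ≫ a =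
      Spec.map (CommRingCat.ofHom (algebraMap O L)) ≫ Spec.map (CommRingCat.ofHom lam') ≫ a) :
    lam = lam' := by
  rw [← Category.assoc, ← Category.assoc, cancel_mono, ← Spec.map_comp, ← Spec.map_comp] at hgen
  have h2 := congrArg CommRingCat.Hom.hom (Spec.map_injective hgen)
  ext r
  apply IsFractionRing.injective O L
  simpa using RingHom.congr_fun h2 r

/-- If two lifts of the same generic point go through the two different charts, the first one
also goes through the second chart. -/
theorem ChartPair.exists_factor_cross (P : ChartPair c Ra Rb Rab) {O L : Type u} [CommRing O]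
    [Field L] [Algebra O L] [IsFractionRing O L] (lam : Ra →+* O) (lam' : Rb →+* O)
    (hgen : Spec.map (CommRingCat.ofHom (algebraMap O L)) ≫ Spec.map (CommRingCat.ofHom lam) ≫ P.a
      = Spec.map (CommRingCat.ofHom (algebraMap O L)) ≫ Spec.map (CommRingCat.ofHom lam') ≫ P.b) :
    ∃ lam'' : Rb →+* O, Spec.map (CommRingCat.ofHom lam) ≫ P.a =
      Spec.map (CommRingCat.ofHom lam'') ≫ P.b := by
  have := P.oa
  have := P.ob
  have := P.away_a
  have : IsOpenImmersion (Spec.map (CommRingCat.ofHom (algebraMap Ra Rab))) :=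
    IsOpenImmersion.of_isLocalization P.ta
  let i₁ : Spec (CommRingCat.of L) ⟶ X :=
    Spec.map (CommRingCat.ofHom (algebraMap O L)) ≫ Spec.map (CommRingCat.ofHom lam) ≫ P.a
  have hi₁ : i₁ =
    Spec.map (CommRingCat.ofHom (algebraMap O L)) ≫ Spec.map (CommRingCat.ofHom lam) ≫ P.a := rfl
  have hrange : Set.range i₁ ⊆
      Set.range (Spec.map (CommRingCat.ofHom (algebraMap Ra Rab)) ≫ P.a) := by
    rintro _ ⟨y, rfl⟩
    apply P.inter
    refine ⟨⟨(Spec.map (CommRingCat.ofHom (algebraMap O L)) ≫
      Spec.map (CommRingCat.ofHom lam)) y, ?_⟩, ⟨(Spec.map (CommRingCat.ofHom (algebraMap O L)) ≫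
      Spec.map (CommRingCat.ofHom lam')) y, ?_⟩⟩
    · rw [hi₁]; simp
    · rw [hi₁, hgen]; simp
  let g := IsOpenImmersion.lift (Spec.map (CommRingCat.ofHom (algebraMap Ra Rab)) ≫ P.a) i₁ hrange
  have hg : g ≫ Spec.map (CommRingCat.ofHom (algebraMap Ra Rab)) ≫ P.a = i₁ :=
    IsOpenImmersion.lift_fac _ _ _
  let φab : Rab →+* L := (Spec.preimage g).hom
  have hgφ : g = Spec.map (CommRingCat.ofHom φab) := by
    simp only [φab, CommRingCat.ofHom_hom, Spec.map_preimage]
  -- compare on chart a
  have ha : (algebraMap O L).comp lam = φab.comp (algebraMap Ra Rab) := by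
    have h1 : Spec.map (CommRingCat.ofHom (algebraMap O L)) ≫ Spec.map (CommRingCat.ofHom lam) ≫ P.a
        = Spec.map (CommRingCat.ofHom φab) ≫ Spec.map (CommRingCat.ofHom (algebraMap Ra Rab)) ≫ P.a := by
      rw [← hgφ, hg]
    rw [← Category.assoc, ← Category.assoc, cancel_mono, ← Spec.map_comp, ← Spec.map_comp] at h1
    have h2 := congrArg CommRingCat.Hom.hom (Spec.map_injective h1)
    simpa using h2
  have hb : (algebraMap O L).comp lam' = φab.comp (algebraMap Rb Rab) := by
    have h1 : Spec.map (CommRingCat.ofHom (algebraMap O L)) ≫ Spec.map (CommRingCat.ofHom lam') ≫ P.b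
        = Spec.map (CommRingCat.ofHom φab) ≫ Spec.map (CommRingCat.ofHom (algebraMap Rb Rab)) ≫ P.b := by
      rw [← hgen, ← P.cond, ← hgφ, hg]
    rw [← Category.assoc, ← Category.assoc, cancel_mono, ← Spec.map_comp, ← Spec.map_comp] at h1
    have h2 := congrArg CommRingCat.Hom.hom (Spec.map_injective h1)
    simpa using h2
  have hunit : IsUnit (lam P.ta) := by
    refine IsUnit.of_mul_eq_one (lam' P.tb) ?_
    apply IsFractionRing.injective O L
    have e1 := RingHom.congr_fun ha P.ta
    have e2 := RingHom.congr_fun hb P.tb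
    simp only [RingHom.comp_apply] at e1 e2
    rw [map_mul, e1, e2, ← map_mul, P.ts, map_one, map_one]
  refine ⟨(IsLocalization.Away.lift P.ta hunit : Rab →+* O).comp (algebraMap Rb Rab), ?_⟩
  have hl : lam = (IsLocalization.Away.lift P.ta hunit : Rab →+* O).comp (algebraMap Ra Rab) := by
    ext r; simp
  conv_lhs => rw [hl]
  rw [CommRingCat.ofHom_comp, CommRingCat.ofHom_comp, Spec.map_comp, Spec.map_comp,
    Category.assoc, Category.assoc, P.cond]

/-- **Valuative criterion** for a scheme covered by a symmetric pair of charts. -/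
theorem valuativeCriterion_of_chartPair (P : ChartPair c Ra Rb Rab) (P' : ChartPair c Rb Ra Rab)
    (hab : P'.a = P.b) (hba : P'.b = P.a)
    (hcover : ∀ x : X, x ∈ Set.range P.a ∨ x ∈ Set.range P.b) : ValuativeCriterion c := by
  have := P.oa
  have := P.ob
  rw [ValuativeCriterion.iff]
  refine ⟨fun S => ?_, fun S => ?_⟩
  · -- existence
    rcases hcover (S.i₁ default) with h | h
    · refine P.hasLift_of_range_subset S ?_
      rintro _ ⟨y, rfl⟩
      rw [Subsingleton.elim y default]; exact h
    · refine P'.hasLift_of_range_subset S ?_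
      rintro _ ⟨y, rfl⟩
      rw [Subsingleton.elim y default, hab]; exact h
  · -- uniqueness
    refine ⟨fun l l' => ?_⟩
    apply CommSq.LiftStruct.ext
    have hl := l.fac_left
    have hl' := l'.fac_left
    rcases hcover (l.l (IsLocalRing.closedPoint S.R)) with h | h <;>
    rcases hcover (l'.l (IsLocalRing.closedPoint S.R)) with h' | h'
    · obtain ⟨lam, e⟩ := exists_factor_of_closedPoint_mem P.a l.l h
      obtain ⟨lam', e'⟩ := exists_factor_of_closedPoint_mem P.a l'.l h'
      rw [e, e']
      rw [eq_of_factor_same (L := S.K) P.a lam lam' (by rw [← e, ← e', hl, hl'])]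
    · obtain ⟨lam, e⟩ := exists_factor_of_closedPoint_mem P.a l.l h
      obtain ⟨lam', e'⟩ := exists_factor_of_closedPoint_mem P.b l'.l h'
      obtain ⟨lam'', e''⟩ := P.exists_factor_cross (L := S.K) lam lam'
        (by rw [← e, ← e', hl, hl'])
      rw [e, e', e'']
      rw [eq_of_factor_same (L := S.K) P.b lam'' lam' (by rw [← e'', ← e, ← e', hl, hl'])]
    · obtain ⟨lam, e⟩ := exists_factor_of_closedPoint_mem P.b l.l h
      obtain ⟨lam', e'⟩ := exists_factor_of_closedPoint_mem P.a l'.l h'
      obtain ⟨lam'', e''⟩ := P'.exists_factor_cross (L := S.K) lam lam'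
        (by rw [hab, hba, ← e, ← e', hl, hl'])
      rw [hab, hba] at e''
      rw [e, e', e'']
      rw [eq_of_factor_same (L := S.K) P.a lam'' lam' (by rw [← e'', ← e, ← e', hl, hl'])]
    · obtain ⟨lam, e⟩ := exists_factor_of_closedPoint_mem P.b l.l h
      obtain ⟨lam', e'⟩ := exists_factor_of_closedPoint_mem P.b l'.l h'
      rw [e, e']
      rw [eq_of_factor_same (L := S.K) P.b lam lam' (by rw [← e, ← e', hl, hl'])]

end Pair

section Final

open Fermat.Agent.Jac

variable {K R0 R1 R01 : Type u} [Field K] [CommRing R0] [CommRing R1] [CommRing R01]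
  [Algebra K R0] [Algebra K R1] [Algebra K R01] [Algebra R0 R01] [Algebra R1 R01]
  [IsScalarTower K R0 R01] [IsScalarTower K R1 R01] (ch : TwoChart K R0 R1 R01)

/-- the chart pair `(U0, U1)` -/
noncomputable def pair01 (h0 : (aeval (R := K) ch.t).toRingHom.IsIntegral)
    (h1 : (aeval (R := K) ch.s).toRingHom.IsIntegral) : ChartPair (Glue.c ch) R0 R1 R01 where
  a := Glue.i0 ch
  b := Glue.i1 ch
  oa := inferInstance
  ob := inferInstance
  cond := Glue.condition ch
  inter := by
    rintro x ⟨hx0, hx1⟩
    have hx : x ∈ (Glue.U0 ch ⊓ Glue.U1 ch : (Glue.X ch).Opens) := ⟨hx0, hx1⟩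
    rw [Glue.inter] at hx
    exact hx
  ac := Glue.i0_c ch
  bc := Glue.i1_c ch
  ta := ch.t
  tb := ch.s
  away_a := ch.away0
  ts := ch.ts
  int_a := h0
  int_b := h1

/-- the chart pair `(U1, U0)` -/
noncomputable def pair10 (h0 : (aeval (R := K) ch.t).toRingHom.IsIntegral)
    (h1 : (aeval (R := K) ch.s).toRingHom.IsIntegral) : ChartPair (Glue.c ch) R1 R0 R01 where
  a := Glue.i1 ch
  b := Glue.i0 ch
  oa := inferInstance
  ob := inferInstance
  cond := (Glue.condition ch).symm
  inter := by
    rintro x ⟨hx1, hx0⟩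
    have hx : x ∈ (Glue.U0 ch ⊓ Glue.U1 ch : (Glue.X ch).Opens) := ⟨hx0, hx1⟩
    rw [Glue.inter] at hx
    obtain ⟨z, hz⟩ := hx
    refine ⟨z, ?_⟩
    rw [← hz, Glue.i01_eq']
    rfl
  ac := Glue.i1_c ch
  bc := Glue.i0_c ch
  ta := ch.s
  tb := ch.t
  away_a := ch.away1
  ts := by rw [mul_comm]; exact ch.ts
  int_a := h1
  int_b := h0

theorem valuativeCriterion_c (h0 : (aeval (R := K) ch.t).toRingHom.IsIntegral)
    (h1 : (aeval (R := K) ch.s).toRingHom.IsIntegral) : ValuativeCriterion (Glue.c ch) :=
  valuativeCriterion_of_chartPair (pair01 ch h0 h1) (pair10 ch h0 h1) rfl rfl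
    (Glue.jointly_surjective ch)

/-- The three-chart open cover of `X ch` (overlap, first chart, second chart). -/
noncomputable def cover3 : (Glue.X ch).OpenCover :=
  Scheme.IsLocallyDirected.openCover (span (Glue.j0 ch) (Glue.j1 ch))

instance compactSpace_X : CompactSpace (Glue.X ch) := by
  constructor
  have h : (Set.univ : Set (Glue.X ch)) = (Glue.U0 ch : Set (Glue.X ch)) ∪ Glue.U1 ch := by
    have := congrArg (fun U : (Glue.X ch).Opens => (U : Set (Glue.X ch))) (Glue.cover ch)
    simpa using this.symm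
  rw [h]
  exact (Glue.isAffineOpen_U0 ch).isCompact.union (Glue.isAffineOpen_U1 ch).isCompact

set_option backward.isDefEq.respectTransparency.types false in
instance quasiCompact_c : QuasiCompact (Glue.c ch) := by
  rw [HasAffineProperty.iff_of_isAffine (P := @QuasiCompact)]; infer_instance

section FT

variable [Algebra.FiniteType K R0] [Algebra.FiniteType K R1]

instance isLocallyNoetherian_X : IsLocallyNoetherian (Glue.X ch) := by
  have h0 : IsNoetherianRing R0 := Algebra.FiniteType.isNoetherianRing K R0
  have h1 : IsNoetherianRing R1 := Algebra.FiniteType.isNoetherianRing K R1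
  have h01 : IsNoetherianRing R01 := by
    have := ch.away0
    exact IsLocalization.isNoetherianRing (Submonoid.powers ch.t) R01 inferInstance
  rw [isLocallyNoetherian_iff_openCover (cover3 ch)]
  intro i
  rcases i with _ | i
  · exact inferInstanceAs (IsLocallyNoetherian (Spec (CommRingCat.of R01)))
  · rcases i with _ | _
    · exact inferInstanceAs (IsLocallyNoetherian (Spec (CommRingCat.of R0)))
    · exact inferInstanceAs (IsLocallyNoetherian (Spec (CommRingCat.of R1)))

set_option backward.isDefEq.respectTransparency.types false in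
instance quasiSeparated_c : QuasiSeparated (Glue.c ch) := by
  rw [HasAffineProperty.iff_of_isAffine (P := @QuasiSeparated)]; infer_instance

instance locallyOfFiniteType_c : LocallyOfFiniteType (Glue.c ch) := by
  have e0 : LocallyOfFiniteType (Glue.i0 ch ≫ Glue.c ch) := by
    rw [Glue.i0_c]
    unfold Glue.s0
    rw [HasRingHomProperty.Spec_iff (P := @LocallyOfFiniteType)]
    exact (RingHom.finiteType_algebraMap (A := K) (B := R0)).mpr inferInstance
  have e1 : LocallyOfFiniteType (Glue.i1 ch ≫ Glue.c ch) := by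
    rw [Glue.i1_c]
    unfold Glue.s1
    rw [HasRingHomProperty.Spec_iff (P := @LocallyOfFiniteType)]
    exact (RingHom.finiteType_algebraMap (A := K) (B := R1)).mpr inferInstance
  have hloc : IsZariskiLocalAtSource @LocallyOfFiniteType.{u} := by
    set_option backward.isDefEq.respectTransparency.types false in infer_instance
  rw [IsZariskiLocalAtSource.iff_of_openCover (P := @LocallyOfFiniteType) (cover3 ch)]
  intro i
  rcases i with _ | i
  · have : (cover3 ch).f none ≫ Glue.c ch = Glue.j0 ch ≫ Glue.i0 ch ≫ Glue.c ch := by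
      rw [← Category.assoc]
      congr 1
      exact (colimit.w (span (Glue.j0 ch) (Glue.j1 ch))
        (WidePushoutShape.Hom.init WalkingPair.left)).symm
    rw [this]
    have hj : IsOpenImmersion (Glue.j0 ch) := Glue.isOpenImmersion_j0 ch
    have hj' : LocallyOfFiniteType (Glue.j0 ch) := locallyOfFiniteType_of_isOpenImmersion _
    exact @locallyOfFiniteType_comp _ _ _ (Glue.j0 ch) (Glue.i0 ch ≫ Glue.c ch) hj' e0
  · rcases i with _ | _
    · exact e0
    · exact e1

/-- **F1b-PROPER.** The two-chart scheme is proper over the base field as soon as the two chart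
rings are of finite type and integral over the coordinate lines. -/
theorem isProper_c (h0 : (aeval (R := K) ch.t).toRingHom.IsIntegral)
    (h1 : (aeval (R := K) ch.s).toRingHom.IsIntegral) : IsProper (Glue.c ch) :=
  IsProper.of_valuativeCriterion _ (valuativeCriterion_c ch h0 h1)

end FT

end Final

end Fermat.Agent.AV.F1Model15.Proper85
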