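/-
Fermat/Agent/AV/F1Model15/Main.lean  (helper15) -- programme AV, brick F1: `modelExists`.

Every function field of one variable over an algebraically closed field of characteristic zero
has a model curve in the S25 format (`ModelExists`), with the variants needed by F5 (the
coordinate is a generator) and by CURV (any characteristic, separating coordinate).
-/
import Mathlib
import Fermat.Agent.AV.F1Model15.Interface
import Fermat.Agent.AV.F1Model15.Assembly
import Fermat.Agent.AV.F1Model15.Proper85
import Fermat.Agent.AV.F1Model15.Integral15
import Fermat.Agent.AV.F1Model15.ChartAlg34.Final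

set_option autoImplicit false

open CategoryTheory CategoryTheory.Limits AlgebraicGeometry TopologicalSpace Opposite
open NeronModelInfra Polynomial
open scoped IntermediateField

universe u

noncomputable section

namespace Fermat.Agent.AV.F1Model15

open Fermat.Agent.Jac

/-- A ring which is a finite `K[X]`-module through `X ↦ r` is integral over `K[X]`. -/
theorem isIntegral_aeval_of_finite {K R : Type*} [CommRing K] [CommRing R] [Algebra K R] (r : R)
    (h : Module.Finite K[X] (Module.AEval K R r)) :
    (aeval (R := K) r).toRingHom.IsIntegral := by
  apply RingHom.IsIntegral.of_finite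
  let : Algebra K[X] R := (aeval (R := K) r).toRingHom.toAlgebra
  show Module.Finite K[X] R
  let e : Module.AEval K R r ≃ₗ[K[X]] R :=
    { (Module.AEval.of K R r).symm.toAddEquiv with
      map_smul' := fun p x => by
        change (Module.AEval.of K R r).symm (p • x) = p • (Module.AEval.of K R r).symm x
        rw [Module.AEval.of_symm_smul]
        rfl }
  exact Module.Finite.equiv e

namespace ChartAlg

variable {K F : Type u} [Field K] [Field F] [Algebra K F] (alg : ChartAlg K F)

attribute [local instance] algebra0 algebra1

theorem isProper [IsAlgClosed K] : IsProper alg.str := by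
  have := alg.finiteType0
  have := alg.finiteType1
  exact Proper85.isProper_c alg.chart
    (isIntegral_aeval_of_finite alg.t0 alg.finite0)
    (isIntegral_aeval_of_finite alg.s1 alg.finite1)

theorem isIntegral_C : IsIntegral alg.C := by
  have : Nontrivial alg.B01 := inferInstance
  exact Glue.isIntegral_X alg.chart

/-- **F1d.** The model curve of a chart algebra over an algebraically closed field. -/
theorem exists_model [IsAlgClosed K] : ∃ M : Model K F, M.alg = alg := by
  obtain ⟨P, hP⟩ := alg.exists_point
  exact ⟨alg.model P hP alg.isProper alg.isIntegral_C, rfl⟩

end ChartAlg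

/-- The model curve attached to a separating transcendental coordinate (any characteristic). -/
theorem model_of_separable (K F : Type u) [Field K] [Field F] [Algebra K F] [IsAlgClosed K]
    (t : F) (ht : Transcendental K t) [FiniteDimensional K⟮t⟯ F] [Algebra.IsSeparable K⟮t⟯ F] :
    ∃ M : Model K F, M.alg.t = t := by
  obtain ⟨M, hM⟩ := (ChartAlg34.chartAlgOf t ht).exists_model
  exact ⟨M, by rw [hM]; rfl⟩

/-- **F1**, with the extra information that the coordinate of the model is a generator of the
function field (`Fermat.Agent.X0.FF.IsGen K M.alg.t`, unfolded). -/
theorem modelExists_isGen (K F : Type u) [Field K] [Field F] [Algebra K F] [IsAlgClosed K]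
    [CharZero K] [AlgebraicCurve.IsCurveOver K F] [Algebra.EssFiniteType K F] :
    ∃ M : Model K F, Transcendental K M.alg.t ∧ FiniteDimensional K⟮M.alg.t⟯ F := by
  obtain ⟨t, ht, hfin⟩ := ChartAlg34.exists_transcendental_finiteDimensional K F
    (AlgebraicCurve.IsCurveOver.finrank_kaehler (K := K) (F := F))
  have := ChartAlg34.isSeparable_adjoin_simple (K := K) t
  obtain ⟨M, hM⟩ := model_of_separable K F t ht
  exact ⟨M, M.alg.transc, by rw [hM]; exact hfin⟩

/-- **F1.** Every function field of one variable over an algebraically closed field of
characteristic zero has a model curve. -/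
theorem modelExists : ModelExists.{u} := by
  intro K F _ _ _ _ _ _ _
  obtain ⟨M, -⟩ := modelExists_isGen K F
  exact ⟨M⟩

end Fermat.Agent.AV.F1Model15
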