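/-
Fermat/Agent/AV/F1Model15/F1Input15.lean  (helper15) -- programme AV, glue F1 ⟹ CURV:
the hypothesis `Curv33.GermScheme.F1Input K` of helper33/helper87's brick CURV is discharged by
`F1Model15.model_of_separable`, hence `CurvStatement G g` holds unconditionally.
-/
import Mathlib
import Fermat.Agent.AV.F1Model15.Main
import Fermat.Agent.AV.Curv33.CurvMain87

set_option autoImplicit false

open CategoryTheory CategoryTheory.Limits AlgebraicGeometry NeronModelInfra GoodReductionJacobian
open IntermediateField

universe u

namespace Fermat.Agent.AV.F1Model15

/-- **F1 in the form consumed by CURV**, over an algebraically closed field. -/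
theorem f1Input (K : Type u) [Field K] [IsAlgClosed K] :
    Fermat.Agent.AV.Curv33.GermScheme.F1Input K := by
  intro F _ _ t ht _ _
  obtain ⟨M, -⟩ := model_of_separable K F t ht
  exact ⟨M⟩

/-- **CURV, unconditional**: on a smooth proper irreducible group scheme of relative dimension `g`
over an algebraically closed field there are `g` curves through the origin whose sum map is étale at
the origin (in the packaged form `Curv33.CurvStatement`). -/
theorem curvStatement_uncond {K : Type u} [Field K] [IsAlgClosed K] {A : Scheme.{u}}
    {f : A ⟶ Spec (CommRingCat.of K)} (G : RelativeGroupLaw K f) (g : ℕ)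
    [SmoothOfRelativeDimension g f] [IsProper f] [IrreducibleSpace A] :
    Fermat.Agent.AV.Curv33.CurvStatement G g :=
  Fermat.Agent.AV.Curv33.CurvMain87.curvStatement (f1Input K) G g

end Fermat.Agent.AV.F1Model15
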