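/-
Fermat/Agent/AV/F1Model15/GlueSections.lean  (helper15) -- programme AV, brick F1b, part 2.

Sections of the glued scheme `X ch` over its charts: `Γ(X, U_i) ≅ R_i`, compatibly with
restriction, the `A`-algebra structures, and basic opens.
-/
import Mathlib
import Fermat.Agent.Jac.CurveCharts
import Fermat.Agent.AV.F1Model15.Glue

set_option autoImplicit false

open CategoryTheory CategoryTheory.Limits AlgebraicGeometry TopologicalSpace Opposite

universe u

noncomputable section

namespace Fermat.Agent.AV.F1Model15.Glue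

open Fermat.Agent.Jac

section General

variable {X : Scheme.{u}} {R R' : Type u} [CommRing R] [CommRing R']

/-- For an open immersion `f : Spec R ⟶ X`, the ring of sections over (an open equal to) its
range maps to `R`. -/
def secHom (f : Spec (CommRingCat.of R) ⟶ X) [IsOpenImmersion f] (U : X.Opens)
    (hU : U = f.opensRange) : Γ(X, U) ⟶ CommRingCat.of R :=
  f.appLE U ⊤ (by rw [hU, Scheme.Hom.preimage_opensRange]) ≫
    (Scheme.ΓSpecIso (CommRingCat.of R)).hom

instance isIso_secHom (f : Spec (CommRingCat.of R) ⟶ X) [IsOpenImmersion f] (U : X.Opens)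
    (hU : U = f.opensRange) : IsIso (secHom f U hU) := by
  unfold secHom Scheme.Hom.appLE
  have : IsIso (f.app U) := Scheme.Hom.isIso_app f U hU.le
  have : IsIso (homOfLE (show (⊤ : (Spec (CommRingCat.of R)).Opens) ≤ f ⁻¹ᵁ U by
      rw [hU, Scheme.Hom.preimage_opensRange])) :=
    ⟨⟨homOfLE le_top, rfl, rfl⟩⟩
  infer_instance

/-- `Γ(X, U) ≅ R` for `U` the range of an open immersion `Spec R ⟶ X`. -/
def secIso (f : Spec (CommRingCat.of R) ⟶ X) [IsOpenImmersion f] (U : X.Opens)
    (hU : U = f.opensRange) : Γ(X, U) ≅ CommRingCat.of R := asIso (secHom f U hU)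

/-- Compatibility of `secHom` with a morphism `Spec R' ⟶ Spec R` of affine schemes. -/
theorem appLE_secHom (f : Spec (CommRingCat.of R) ⟶ X) [IsOpenImmersion f] (U : X.Opens)
    (hU : U = f.opensRange) (φ : R →+* R')
    (e : (⊤ : (Spec (CommRingCat.of R')).Opens) ≤ (Spec.map (CommRingCat.ofHom φ) ≫ f) ⁻¹ᵁ U) :
    (Spec.map (CommRingCat.ofHom φ) ≫ f).appLE U ⊤ e ≫
        (Scheme.ΓSpecIso (CommRingCat.of R')).hom =
      secHom f U hU ≫ CommRingCat.ofHom φ := by
  unfold secHom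
  rw [Category.assoc, ← Scheme.ΓSpecIso_naturality]
  have h : (Spec.map (CommRingCat.ofHom φ)).appTop =
      (Spec.map (CommRingCat.ofHom φ)).appLE ⊤ ⊤ le_top := by
    simp [Scheme.Hom.appLE]
  rw [h, Scheme.Hom.appLE_comp_appLE_assoc]

/-- Compatibility of `secHom` with restriction to a smaller affine chart. -/
theorem map_secHom (f : Spec (CommRingCat.of R) ⟶ X) [IsOpenImmersion f] (U : X.Opens)
    (hU : U = f.opensRange) (φ : R →+* R')
    [IsOpenImmersion (Spec.map (CommRingCat.ofHom φ))] (U' : X.Opens)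
    (hU' : U' = (Spec.map (CommRingCat.ofHom φ) ≫ f).opensRange) (hle : U' ≤ U) :
    X.presheaf.map (homOfLE hle).op ≫ secHom (Spec.map (CommRingCat.ofHom φ) ≫ f) U' hU' =
      secHom f U hU ≫ CommRingCat.ofHom φ := by
  rw [← appLE_secHom f U hU φ]
  unfold secHom
  rw [Scheme.Hom.map_appLE_assoc]

/-- Compatibility of `secHom` with the structure morphism. -/
theorem str_secHom {A : Type u} [CommRing A] [Algebra A R] (c : X ⟶ Spec (CommRingCat.of A))
    (f : Spec (CommRingCat.of R) ⟶ X) [IsOpenImmersion f] (U : X.Opens)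
    (hU : U = f.opensRange)
    (hc : f ≫ c = Spec.map (CommRingCat.ofHom (algebraMap A R))) :
    (Scheme.ΓSpecIso (CommRingCat.of A)).inv ≫ c.appTop ≫
      X.presheaf.map (homOfLE (le_top : U ≤ ⊤)).op ≫ secHom f U hU =
      CommRingCat.ofHom (algebraMap A R) := by
  unfold secHom
  rw [Scheme.Hom.map_appLE_assoc]
  have h : c.appTop ≫ f.appLE ⊤ ⊤ le_top = (f ≫ c).appTop := by
    simp [Scheme.Hom.appLE]
  rw [reassoc_of% h, hc, Scheme.ΓSpecIso_naturality, Iso.inv_hom_id_assoc]

theorem eq_of_preimage_eq (f : Spec (CommRingCat.of R) ⟶ X) [IsOpenImmersion f]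
    {V W : X.Opens} (hV : V ≤ f.opensRange) (hW : W ≤ f.opensRange)
    (h : f ⁻¹ᵁ V = f ⁻¹ᵁ W) : V = W := by
  have h1 := f.image_preimage_eq_opensRange_inf V
  have h2 := f.image_preimage_eq_opensRange_inf W
  rw [inf_eq_right.mpr hV] at h1
  rw [inf_eq_right.mpr hW] at h2
  rw [← h1, ← h2, h]

/-- The preimage in `Spec R` of the basic open of a section over the chart. -/
theorem preimage_basicOpen_secIso_inv (f : Spec (CommRingCat.of R) ⟶ X) [IsOpenImmersion f]
    (U : X.Opens) (hU : U = f.opensRange) (r : R) :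
    f ⁻¹ᵁ (X.basicOpen ((secIso f U hU).inv r)) = PrimeSpectrum.basicOpen r := by
  have e : (⊤ : (Spec (CommRingCat.of R)).Opens) ≤ f ⁻¹ᵁ U := by
    rw [hU, Scheme.Hom.preimage_opensRange]
  have h1 := Scheme.basicOpen_appLE f ⊤ U e ((secIso f U hU).inv r)
  rw [top_inf_eq] at h1
  rw [← h1, basicOpen_eq_of_affine']
  congr 1
  change (secHom f U hU).hom ((secIso f U hU).inv r) = r
  exact congrArg (fun g : CommRingCat.of R ⟶ CommRingCat.of R => g.hom r)
    (secIso f U hU).inv_hom_id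

/-- The range of the localised chart is the basic open. -/
theorem opensRange_away (f : Spec (CommRingCat.of R) ⟶ X) [IsOpenImmersion f] (U : X.Opens)
    (hU : U = f.opensRange) (r : R) [Algebra R R'] [IsLocalization.Away r R']
    [IsOpenImmersion (Spec.map (CommRingCat.ofHom (algebraMap R R')))] :
    (Spec.map (CommRingCat.ofHom (algebraMap R R')) ≫ f).opensRange =
      X.basicOpen ((secIso f U hU).inv r) := by
  apply eq_of_preimage_eq f
  · rw [Scheme.Hom.opensRange_comp]
    exact f.image_le_opensRange _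
  · exact (X.basicOpen_le _).trans hU.le
  · rw [preimage_basicOpen_secIso_inv, Scheme.Hom.opensRange_comp, Scheme.Hom.preimage_image_eq]
    ext x
    exact Set.ext_iff.mp (PrimeSpectrum.localization_away_comap_range R' r) x

theorem opensRange_congr {Y : Scheme.{u}} {f g : Y ⟶ X} [IsOpenImmersion f] [IsOpenImmersion g]
    (h : f = g) : f.opensRange = g.opensRange := by
  subst h; rfl

theorem secHom_congr {f g : Spec (CommRingCat.of R) ⟶ X} [IsOpenImmersion f]
    [IsOpenImmersion g] (h : f = g) (U : X.Opens) (hU : U = f.opensRange) :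
    secHom f U hU = secHom g U (by rw [hU]; subst h; rfl) := by
  subst h; rfl

end General

section Charts

variable {A R0 R1 R01 : Type u} [CommRing A] [CommRing R0] [CommRing R1] [CommRing R01]
  [Algebra A R0] [Algebra A R1] [Algebra A R01] [Algebra R0 R01] [Algebra R1 R01]
  [IsScalarTower A R0 R01] [IsScalarTower A R1 R01] (ch : TwoChart A R0 R1 R01)

/-- `Γ(X, U0) ≅ R0`. -/
def e0 : Γ(X ch, U0 ch) ≅ CommRingCat.of R0 := secIso (i0 ch) (U0 ch) rfl

/-- `Γ(X, U1) ≅ R1`. -/
def e1 : Γ(X ch, U1 ch) ≅ CommRingCat.of R1 := secIso (i1 ch) (U1 ch) rfl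

/-- `Γ(X, U0 ⊓ U1) ≅ R01`. -/
def e01 : Γ(X ch, U0 ch ⊓ U1 ch) ≅ CommRingCat.of R01 :=
  secIso (i01 ch) (U0 ch ⊓ U1 ch) (inter ch)

/-- The coordinate on the first chart, as a section of `X`. -/
def tX : Γ(X ch, U0 ch) := (e0 ch).inv ch.t

/-- The coordinate on the second chart, as a section of `X`. -/
def sX : Γ(X ch, U1 ch) := (e1 ch).inv ch.s

theorem e0_tX : (e0 ch).hom (tX ch) = ch.t :=
  congrArg (fun g : CommRingCat.of R0 ⟶ CommRingCat.of R0 => g.hom ch.t) (e0 ch).inv_hom_id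

theorem e1_sX : (e1 ch).hom (sX ch) = ch.s :=
  congrArg (fun g : CommRingCat.of R1 ⟶ CommRingCat.of R1 => g.hom ch.s) (e1 ch).inv_hom_id

theorem isOpenImmersion_specMap0 (ch' : TwoChart A R0 R1 R01) :
    IsOpenImmersion (Spec.map (CommRingCat.ofHom (algebraMap R0 R01))) := isOpenImmersion_j0 ch'

theorem isOpenImmersion_specMap1 (ch' : TwoChart A R0 R1 R01) :
    IsOpenImmersion (Spec.map (CommRingCat.ofHom (algebraMap R1 R01))) := isOpenImmersion_j1 ch'

theorem res0 : (X ch).presheaf.map (homOfLE (inf_le_left : U0 ch ⊓ U1 ch ≤ U0 ch)).op ≫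
    (e01 ch).hom = (e0 ch).hom ≫ CommRingCat.ofHom (algebraMap R0 R01) :=
  haveI := isOpenImmersion_specMap0 ch
  map_secHom (i0 ch) (U0 ch) rfl (algebraMap R0 R01) (U0 ch ⊓ U1 ch) (inter ch) inf_le_left

theorem res1 : (X ch).presheaf.map (homOfLE (inf_le_right : U0 ch ⊓ U1 ch ≤ U1 ch)).op ≫
    (e01 ch).hom = (e1 ch).hom ≫ CommRingCat.ofHom (algebraMap R1 R01) := by
  have := isOpenImmersion_specMap1 ch
  have hr : (i01 ch).opensRange =
      (Spec.map (CommRingCat.ofHom (algebraMap R1 R01)) ≫ i1 ch).opensRange :=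
    opensRange_congr (i01_eq' ch)
  have h := map_secHom (i1 ch) (U1 ch) rfl (algebraMap R1 R01) (U0 ch ⊓ U1 ch)
    ((inter ch).trans hr) inf_le_right
  refine Eq.trans ?_ h
  congr 1
  exact secHom_congr (i01_eq' ch) (U0 ch ⊓ U1 ch) (inter ch)

theorem inter0 : U0 ch ⊓ U1 ch = (X ch).basicOpen (tX ch) := by
  have := ch.away0
  have := isOpenImmersion_specMap0 ch
  rw [inter]
  exact opensRange_away (i0 ch) (U0 ch) rfl ch.t

theorem inter1 : U0 ch ⊓ U1 ch = (X ch).basicOpen (sX ch) := by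
  have := ch.away1
  have := isOpenImmersion_specMap1 ch
  rw [inter, opensRange_congr (i01_eq' ch)]
  exact opensRange_away (i1 ch) (U1 ch) rfl ch.s

theorem ts : ((X ch).presheaf.map (homOfLE (inf_le_left : U0 ch ⊓ U1 ch ≤ U0 ch)).op).hom (tX ch) *
    ((X ch).presheaf.map (homOfLE (inf_le_right : U0 ch ⊓ U1 ch ≤ U1 ch)).op).hom (sX ch) = 1 := by
  have hinj : Function.Injective (e01 ch).hom.hom :=
    (ConcreteCategory.bijective_of_isIso (e01 ch).hom).1
  apply hinj
  rw [map_mul, map_one]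
  have h0 := congrArg (fun g : Γ(X ch, U0 ch) ⟶ CommRingCat.of R01 => g.hom (tX ch)) (res0 ch)
  have h1 := congrArg (fun g : Γ(X ch, U1 ch) ⟶ CommRingCat.of R01 => g.hom (sX ch)) (res1 ch)
  simp only [CommRingCat.hom_comp, RingHom.comp_apply, CommRingCat.hom_ofHom] at h0 h1
  rw [h0, h1]
  have := ch.ts
  rw [← e0_tX ch, ← e1_sX ch] at this
  exact this

theorem i01_c : i01 ch ≫ c ch = Spec.map (CommRingCat.ofHom (algebraMap A R01)) := by
  unfold i01
  rw [Category.assoc, i0_c]
  unfold j0 s0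
  rw [← Spec.map_comp, ← CommRingCat.ofHom_comp]
  congr 2
  ext a
  simp only [RingHom.comp_apply]
  rw [← IsScalarTower.algebraMap_apply]

theorem e0_str :
    (Scheme.ΓSpecIso (CommRingCat.of A)).inv ≫ (c ch).appTop ≫
      (X ch).presheaf.map (homOfLE (le_top : U0 ch ≤ ⊤)).op ≫ (e0 ch).hom =
      CommRingCat.ofHom (algebraMap A R0) :=
  str_secHom (c ch) (i0 ch) (U0 ch) rfl (i0_c ch)

theorem e1_str :
    (Scheme.ΓSpecIso (CommRingCat.of A)).inv ≫ (c ch).appTop ≫
      (X ch).presheaf.map (homOfLE (le_top : U1 ch ≤ ⊤)).op ≫ (e1 ch).hom =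
      CommRingCat.ofHom (algebraMap A R1) :=
  str_secHom (c ch) (i1 ch) (U1 ch) rfl (i1_c ch)

theorem e01_str :
    (Scheme.ΓSpecIso (CommRingCat.of A)).inv ≫ (c ch).appTop ≫
      (X ch).presheaf.map (homOfLE (le_top : U0 ch ⊓ U1 ch ≤ ⊤)).op ≫ (e01 ch).hom =
      CommRingCat.ofHom (algebraMap A R01) :=
  str_secHom (c ch) (i01 ch) (U0 ch ⊓ U1 ch) (inter ch) (i01_c ch)

end Charts

section Field

variable {k R0 R1 R01 : Type u} [Field k] [CommRing R0] [CommRing R1] [CommRing R01]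
  [Algebra k R0] [Algebra k R1] [Algebra k R01] [Algebra R0 R01] [Algebra R1 R01]
  [IsScalarTower k R0 R01] [IsScalarTower k R1 R01] (ch : TwoChart k R0 R1 R01)

theorem e0_sectionsRingHom (a : k) :
    (e0 ch).hom (sectionsRingHom (c ch) (U0 ch) a) = algebraMap k R0 a :=
  congrArg (fun g : CommRingCat.of k ⟶ CommRingCat.of R0 => g.hom a) (e0_str ch)

theorem e1_sectionsRingHom (a : k) :
    (e1 ch).hom (sectionsRingHom (c ch) (U1 ch) a) = algebraMap k R1 a :=
  congrArg (fun g : CommRingCat.of k ⟶ CommRingCat.of R1 => g.hom a) (e1_str ch)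

theorem e01_sectionsRingHom (a : k) :
    (e01 ch).hom (sectionsRingHom (c ch) (U0 ch ⊓ U1 ch) a) = algebraMap k R01 a :=
  congrArg (fun g : CommRingCat.of k ⟶ CommRingCat.of R01 => g.hom a) (e01_str ch)

/-! ### A rational point on the second chart -/

variable (P : R1 →ₐ[k] k)

/-- The `k`-point of `X` attached to a `k`-point of the second chart. -/
def pt : Spec (CommRingCat.of k) ⟶ X ch :=
  Spec.map (CommRingCat.ofHom P.toRingHom) ≫ i1 ch

theorem pt_c : pt ch P ≫ c ch = 𝟙 _ := by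
  unfold pt
  rw [Category.assoc, i1_c]
  unfold s1
  rw [← Spec.map_comp, ← CommRingCat.ofHom_comp]
  have h : (P.toRingHom).comp (algebraMap k R1) = RingHom.id k := by
    ext a
    simp
  rw [h]
  exact Spec.map_id _

theorem pt_preimage_U1 : (pt ch P) ⁻¹ᵁ (U1 ch) = ⊤ := by
  unfold pt
  rw [Scheme.Hom.comp_preimage]
  unfold U1
  rw [Scheme.Hom.preimage_opensRange]
  rfl

theorem pt_app_sX (hP : P ch.s = 0) : ((pt ch P).app (U1 ch)).hom (sX ch) = 0 := by
  have e : (⊤ : (Spec (CommRingCat.of k)).Opens) ≤ (pt ch P) ⁻¹ᵁ (U1 ch) := by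
    rw [pt_preimage_U1]
  have h := appLE_secHom (i1 ch) (U1 ch) rfl P.toRingHom e
  have h2 := congrArg (fun g : Γ(X ch, U1 ch) ⟶ CommRingCat.of k => g.hom (sX ch)) h
  simp only [CommRingCat.hom_comp, RingHom.comp_apply, CommRingCat.hom_ofHom] at h2
  have h3 : (secHom (i1 ch) (U1 ch) rfl).hom (sX ch) = ch.s := e1_sX ch
  rw [h3] at h2
  have h4 : P.toRingHom ch.s = 0 := hP
  rw [h4] at h2
  have hinj : Function.Injective ((Spec (CommRingCat.of k)).presheaf.map (homOfLE e).op ≫
      (Scheme.ΓSpecIso (CommRingCat.of k)).hom).hom := by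
    have : IsIso (homOfLE e) := ⟨⟨homOfLE le_top, rfl, rfl⟩⟩
    exact (ConcreteCategory.bijective_of_isIso _).1
  apply hinj
  rw [map_zero]
  exact h2

end Field

end Fermat.Agent.AV.F1Model15.Glue
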