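/-
Fermat/Agent/AV/F1Model15/Integral85.lean (helper85) -- programme AV, brick F1b-INTEGRAL.
The two-chart scheme `Glue.X ch` is integral as soon as the two chart rings are domains and the
overlap ring is nontrivial.
-/
import Mathlib
import Fermat.Agent.AV.F1Model15.Glue

set_option autoImplicit false

open CategoryTheory CategoryTheory.Limits AlgebraicGeometry TopologicalSpace Opposite

universe u

namespace Fermat.Agent.AV.F1Model15.Integral85

open Fermat.Agent.Jac

variable {A R0 R1 R01 : Type u} [CommRing A] [CommRing R0] [CommRing R1] [CommRing R01]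
  [Algebra A R0] [Algebra A R1] [Algebra A R01] [Algebra R0 R01] [Algebra R1 R01]
  [IsScalarTower A R0 R01] [IsScalarTower A R1 R01] (ch : TwoChart A R0 R1 R01)

/-- The three-chart open cover of `X ch` (overlap, first chart, second chart). -/
noncomputable def cover : (Glue.X ch).OpenCover :=
  Scheme.IsLocallyDirected.openCover (span (Glue.j0 ch) (Glue.j1 ch))

include ch in
theorem isReduced_R01 [IsReduced R0] : IsReduced R01 := by
  have := ch.away0
  exact isReduced_localizationPreserves (Submonoid.powers ch.t) R01 inferInstance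

theorem isReduced_X [IsReduced R0] [IsReduced R1] : AlgebraicGeometry.IsReduced (Glue.X ch) := by
  have h01 : IsReduced R01 := isReduced_R01 ch
  have : ∀ i, AlgebraicGeometry.IsReduced ((cover ch).X i) := by
    intro i
    rcases i with _ | i
    · exact inferInstanceAs (AlgebraicGeometry.IsReduced (Spec (CommRingCat.of R01)))
    · rcases i with _ | _
      · exact inferInstanceAs (AlgebraicGeometry.IsReduced (Spec (CommRingCat.of R0)))
      · exact inferInstanceAs (AlgebraicGeometry.IsReduced (Spec (CommRingCat.of R1)))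
  exact AlgebraicGeometry.IsReduced.of_openCover _ (cover ch)

theorem irreducibleSpace_X [IsDomain R0] [IsDomain R1] [Nontrivial R01] :
    IrreducibleSpace (Glue.X ch) := by
  have h0 : IsIrreducible (Set.range (Glue.i0 ch)) := by
    rw [← Set.image_univ]
    exact (IrreducibleSpace.isIrreducible_univ (Spec (CommRingCat.of R0))).image _
      (Glue.i0 ch).continuous.continuousOn
  have h1 : IsIrreducible (Set.range (Glue.i1 ch)) := by
    rw [← Set.image_univ]
    exact (IrreducibleSpace.isIrreducible_univ (Spec (CommRingCat.of R1))).image _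
      (Glue.i1 ch).continuous.continuousOn
  have ho0 : IsOpen (Set.range (Glue.i0 ch)) := (Glue.i0 ch).isOpenEmbedding.isOpen_range
  have ho1 : IsOpen (Set.range (Glue.i1 ch)) := (Glue.i1 ch).isOpenEmbedding.isOpen_range
  have hne : (Set.range (Glue.i0 ch) ∩ Set.range (Glue.i1 ch)).Nonempty := by
    obtain ⟨z⟩ : Nonempty (Spec (CommRingCat.of R01)) :=
      inferInstanceAs (Nonempty (PrimeSpectrum R01))
    refine ⟨Glue.i01 ch z, ⟨Glue.j0 ch z, rfl⟩, ⟨Glue.j1 ch z, ?_⟩⟩
    exact (congrArg (fun f : Spec (CommRingCat.of R01) ⟶ Glue.X ch => f z)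
      (Glue.condition ch)).symm
  set S := Set.range (Glue.i0 ch) ∩ Set.range (Glue.i1 ch) with hS
  have hSirr : IsIrreducible S :=
    ⟨hne, h0.2.open_subset (ho0.inter ho1) Set.inter_subset_left⟩
  have hc0 : Set.range (Glue.i0 ch) ⊆ closure S :=
    subset_closure_inter_of_isPreirreducible_of_isOpen h0.2 ho1 hne
  have hc1 : Set.range (Glue.i1 ch) ⊆ closure S := by
    have hne' : (Set.range (Glue.i1 ch) ∩ Set.range (Glue.i0 ch)).Nonempty := by
      rw [Set.inter_comm]; exact hne
    have := subset_closure_inter_of_isPreirreducible_of_isOpen h1.2 ho0 hne'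
    rwa [Set.inter_comm] at this
  have huniv : closure S = Set.univ := by
    rw [Set.eq_univ_iff_forall]
    intro x
    rcases Glue.jointly_surjective ch x with ⟨y, rfl⟩ | ⟨y, rfl⟩
    · exact hc0 ⟨y, rfl⟩
    · exact hc1 ⟨y, rfl⟩
  rw [irreducibleSpace_def, Set.top_eq_univ, ← huniv]
  exact hSirr.closure

/-- **F1b-INTEGRAL.** -/
theorem isIntegral_X [IsDomain R0] [IsDomain R1] [Nontrivial R01] : IsIntegral (Glue.X ch) := by
  have := isReduced_X ch
  have := irreducibleSpace_X ch
  exact isIntegral_of_irreducibleSpace_of_isReduced _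

end Fermat.Agent.AV.F1Model15.Integral85
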