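/-
Fermat/Agent/AV/F1Model15/SmoothDedekind42RelDim.lean  (helper42) -- programme AV, brick F1c (ii).

A smooth domain `B` over a field `K` whose fraction field `F` has `finrank F Ω[F⁄K] = n` is covered
by basic opens `D(r)` with `B[1/r]` standard smooth of relative dimension `n`.

(Mathlib: `Algebra.Smooth.exists_span_eq_top_isStandardSmooth`; the rank of the free module
`Ω[B[1/r]⁄K]` is the rank of `Ω[B⁄K]`, which is `finrank F Ω[F⁄K]`, by `IsBaseChange.rank_eq`.)
-/
import Mathlib

set_option autoImplicit false

open TensorProduct KaehlerDifferential

universe u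

namespace Fermat.Agent.AV.F1Model15.SmoothDedekind42

/-- **F1c (ii), general `n`.**  A smooth domain over a field whose function field has
`n`-dimensional differentials is covered by basic opens which are standard smooth of relative
dimension `n`. -/
theorem exists_span_eq_top_isStandardSmoothOfRelativeDimension
    (K B F : Type u) [Field K] [CommRing B] [IsDomain B] [Algebra K B] [Algebra.Smooth K B]
    [Field F] [Algebra B F] [Algebra K F] [IsScalarTower K B F] [IsFractionRing B F]
    (n : ℕ) (h1 : Module.finrank F Ω[F⁄K] = n) :
    ∃ s : Set B, Ideal.span s = ⊤ ∧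
      ∀ r ∈ s, Algebra.IsStandardSmoothOfRelativeDimension n K (Localization.Away r) := by
  obtain ⟨s, hs, h⟩ := Algebra.Smooth.exists_span_eq_top_isStandardSmooth K B
  refine ⟨s \ {0}, by rw [Ideal.span_sdiff_singleton_zero, hs], fun r hr => ?_⟩
  have hr0 : r ≠ 0 := fun h0 => hr.2 (by simpa using h0)
  have hstd : Algebra.IsStandardSmooth K (Localization.Away r) := h r hr.1
  have hle : Submonoid.powers r ≤ nonZeroDivisors B :=
    Submonoid.powers_le.2 (mem_nonZeroDivisors_of_ne_zero hr0)
  have : IsDomain (Localization.Away r) :=
    IsLocalization.isDomain_localization (M := Submonoid.powers r) hle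
  have : FaithfulSMul B (Localization.Away r) :=
    (faithfulSMul_iff_algebraMap_injective B _).2 (IsLocalization.injective _ hle)
  have : FaithfulSMul B F :=
    (faithfulSMul_iff_algebraMap_injective B F).2 (IsFractionRing.injective B F)
  have : Algebra.FormallyEtale B F := Algebra.FormallyEtale.of_isLocalization (nonZeroDivisors B)
  have : Algebra.FormallyEtale B (Localization.Away r) :=
    Algebra.FormallyEtale.of_isLocalization (Submonoid.powers r)
  have bcF : IsBaseChange F (map K K B F) := isBaseChange_of_formallyEtale K B F
  have bcr : IsBaseChange (Localization.Away r) (map K K B (Localization.Away r)) :=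
    isBaseChange_of_formallyEtale K B (Localization.Away r)
  have hB : Module.finrank B Ω[B⁄K] = n := by rw [← bcF.finrank_eq, h1]
  have hfin : Module.Finite B Ω[B⁄K] := inferInstance
  have hrankB : Module.rank B Ω[B⁄K] = n := by
    rw [← Module.finrank_eq_rank, hB]
  rw [Algebra.IsStandardSmoothOfRelativeDimension.iff_of_isStandardSmooth, bcr.rank_eq, hrankB]

end Fermat.Agent.AV.F1Model15.SmoothDedekind42
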