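/-
Fermat/Agent/AV/F1Model15/RelDimOne42.lean  (helper42) -- programme AV, brick F1c (ii):
proof of `RelDimOneStatement` of `F1Model15/Interface.lean`.
-/
import Fermat.Agent.AV.F1Model15.Interface
import Fermat.Agent.AV.F1Model15.SmoothDedekind42RelDim

set_option autoImplicit false

namespace Fermat.Agent.AV.F1Model15.SmoothDedekind42

/-- **F1c (ii)** (alternate proof; the official `relDimOne` is in `SmoothDedekind85.lean`).
Relative dimension one from the rank of the differentials of the fraction field. -/
theorem relDimOne : RelDimOneStatement := by
  intro K B F _ _ _ _ _ _ _ _ _ _ h1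
  exact exists_span_eq_top_isStandardSmoothOfRelativeDimension K B F 1 h1

end Fermat.Agent.AV.F1Model15.SmoothDedekind42
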