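/-
Programme AV (S26/S27), brick F1 (model curve of a function field), sub-brick **F1c (ii)**, helper96.

`RelDimOne96`: **a smooth domain over a field `K` whose fraction field `F` has
`finrank F Ω[F⁄K] = 1` is covered by basic opens which are standard smooth of relative dimension
one.**  Mathlib only.

Proof.  `Algebra.Smooth.exists_span_eq_top_isStandardSmooth` gives a cover by standard smooth basic
opens `B[1/r]`; discard `r = 0`.  For `r ≠ 0`, `A = B[1/r]` is a domain with fraction field `F`,
`Ω[A⁄K]` is free and `F ⊗[A] Ω[A⁄K] ≃ Ω[F⁄K]` (`F` is formally etale over `A`), so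
`rank_A Ω[A⁄K] = rank_F Ω[F⁄K] = 1`; conclude by
`Algebra.IsStandardSmoothOfRelativeDimension.iff_of_isStandardSmooth`.

Main statements:
* `rank_kaehlerDifferential_eq` : `rank_A Ω[A⁄K] = rank_F Ω[F⁄K]` for a domain `A` with free
  differentials and fraction field `F`;
* `exists_span_isStandardSmoothOfRelativeDimension_one` : the theorem.
-/
import Mathlib

set_option autoImplicit false

namespace Fermat.Agent.AV.F1Model15.RelDimOne96

open KaehlerDifferential

universe u

section Rank

variable {K A F : Type u} [Field K] [CommRing A] [IsDomain A] [Algebra K A]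
  [Field F] [Algebra A F] [Algebra K F] [IsScalarTower K A F] [IsFractionRing A F]

/-- For a domain `A` over `K` with free module of differentials, the rank of `Ω[A⁄K]` is the
dimension of `Ω[Frac A⁄K]`. -/
theorem rank_kaehlerDifferential_eq [Module.Free A Ω[A⁄K]] :
    Module.rank A Ω[A⁄K] = Module.rank F Ω[F⁄K] := by
  have : Algebra.FormallyEtale A F := Algebra.FormallyEtale.of_isLocalization (nonZeroDivisors A)
  have e := KaehlerDifferential.tensorKaehlerEquivOfFormallyEtale K A F
  rw [← e.rank_eq, Module.rank_baseChange, Cardinal.lift_id]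

end Rank

section Main

variable (K B F : Type u) [Field K] [CommRing B] [IsDomain B] [Algebra K B] [Algebra.Smooth K B]
  [Field F] [Algebra B F] [Algebra K F] [IsScalarTower K B F] [IsFractionRing B F]

/-- **F1c (ii).** -/
theorem exists_span_isStandardSmoothOfRelativeDimension_one (h : Module.finrank F Ω[F⁄K] = 1) :
    ∃ s : Set B, Ideal.span s = ⊤ ∧
      ∀ r ∈ s, Algebra.IsStandardSmoothOfRelativeDimension 1 K (Localization.Away r) := by
  obtain ⟨s, hs, hstd⟩ := Algebra.Smooth.exists_span_eq_top_isStandardSmooth K B
  refine ⟨s \ {0}, by rw [Ideal.span_sdiff_singleton_zero, hs], fun r hr => ?_⟩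
  have hr0 : r ≠ 0 := fun h0 => hr.2 (by simp [h0])
  have hstd' : Algebra.IsStandardSmooth K (Localization.Away r) := hstd r hr.1
  have hle : Submonoid.powers r ≤ nonZeroDivisors B :=
    Submonoid.powers_le.mpr (mem_nonZeroDivisors_of_ne_zero hr0)
  have hdom : IsDomain (Localization.Away r) := IsLocalization.isDomain_localization hle
  have hunit : IsUnit (algebraMap B F r) :=
    (IsUnit.mk0 _ ((map_ne_zero_iff _ (IsFractionRing.injective B F)).mpr hr0))
  let _ : Algebra (Localization.Away r) F := (IsLocalization.Away.lift r hunit).toAlgebra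
  have htower : IsScalarTower B (Localization.Away r) F :=
    IsScalarTower.of_algebraMap_eq' (IsLocalization.Away.lift_comp r hunit).symm
  have htowerK : IsScalarTower K (Localization.Away r) F := by
    refine IsScalarTower.of_algebraMap_eq' ?_
    rw [IsScalarTower.algebraMap_eq K B F, IsScalarTower.algebraMap_eq K B (Localization.Away r),
      ← RingHom.comp_assoc, ← IsScalarTower.algebraMap_eq B (Localization.Away r) F]
  have hfrac : IsFractionRing (Localization.Away r) F :=
    IsFractionRing.isFractionRing_of_isDomain_of_isLocalization (Submonoid.powers r) _ _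
  rw [Algebra.IsStandardSmoothOfRelativeDimension.iff_of_isStandardSmooth,
    rank_kaehlerDifferential_eq (K := K) (A := Localization.Away r) (F := F), Nat.cast_one,
    Module.rank_eq_one_iff_finrank_eq_one]
  exact h

end Main

end Fermat.Agent.AV.F1Model15.RelDimOne96
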