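/-
Fermat/Agent/AV/F1Model15/SmoothDedekind42Global.lean  (helper42) -- programme AV, brick F1c (i).

A Dedekind domain `B` of finite type over an algebraically closed field `K` is smooth over `K`.

The smooth locus is open (Mathlib), so it is enough to treat maximal ideals `M`: the residue field
is `K` (Nullstellensatz), `B_M` is a DVR or a field, and `B_M` is a quotient of the localisation of
a polynomial ring at the prime `φ⁻¹ M`; then apply the local criterion
`formallySmooth_of_isPrincipal_maximalIdeal` of `SmoothDedekind42Local`.
-/
import Fermat.Agent.AV.F1Model15.SmoothDedekind42Local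

set_option autoImplicit false

open TensorProduct KaehlerDifferential IsLocalRing

namespace Fermat.Agent.AV.F1Model15.SmoothDedekind42

section Global

variable {K B : Type*} [Field K] [IsAlgClosed K] [CommRing B] [Algebra K B]
  [Algebra.FiniteType K B]

/-- Nullstellensatz: the residue field of a finite type algebra over an algebraically closed
field at a maximal ideal is the base field. -/
theorem algebraMap_residueField_surjective (M : Ideal B) [M.IsMaximal] :
    Function.Surjective (algebraMap K (ResidueField (Localization.AtPrime M))) := by
  let _ := Ideal.Quotient.field M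
  have hfin : Module.Finite K (B ⧸ M) := finite_of_finite_type_of_isJacobsonRing K (B ⧸ M)
  have h1 : Function.Surjective (algebraMap K (B ⧸ M)) :=
    (IsAlgClosed.algebraMap_bijective_of_isIntegral (k := K) (K := B ⧸ M)).2
  have h2 := (Ideal.bijective_algebraMap_quotient_residueField M).2
  have : algebraMap K (ResidueField (Localization.AtPrime M)) =
      (algebraMap (B ⧸ M) M.ResidueField).comp (algebraMap K (B ⧸ M)) := by
    ext a
    rw [RingHom.comp_apply, IsScalarTower.algebraMap_apply K B (B ⧸ M),
      IsScalarTower.algebraMap_apply K B (ResidueField (Localization.AtPrime M))]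
    rfl
  rw [this]
  exact h2.comp h1

/-- The maximal ideal of the localisation of a Dedekind domain at a maximal ideal is principal. -/
theorem isPrincipal_maximalIdeal_localization [IsDedekindDomain B]
    (M : Ideal B) [M.IsMaximal] :
    (maximalIdeal (Localization.AtPrime M)).IsPrincipal := by
  by_cases hM : M = ⊥
  · have : maximalIdeal (Localization.AtPrime M) = ⊥ := by
      rw [← Localization.AtPrime.map_eq_maximalIdeal, eq_bot_iff, Ideal.map_le_iff_le_comap]
      intro x hx
      have hx0 : x = 0 := by
        have : x ∈ (⊥ : Ideal B) := hM ▸ hx
        simpa using this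
      simp [hx0]
    rw [this]
    exact bot_isPrincipal
  · have := IsLocalization.AtPrime.isDiscreteValuationRing_of_dedekind_domain B hM
      (Localization.AtPrime M)
    exact IsPrincipalIdealRing.principal _

theorem formallySmooth_localization_of_isMaximal [IsDedekindDomain B]
    (M : Ideal B) [M.IsMaximal] :
    Algebra.FormallySmooth K (Localization.AtPrime M) := by
  classical
  obtain ⟨n, φ, hφ⟩ := Algebra.FiniteType.iff_quotient_mvPolynomial''.1
    (inferInstance : Algebra.FiniteType K B)
  let A := MvPolynomial (Fin n) K
  let M' : Ideal A := M.comap φ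
  have hM' : M'.IsPrime := Ideal.comap_isPrime φ M
  let P := Localization.AtPrime M'
  let S := Localization.AtPrime M
  let ψ : P →+* S := Localization.localRingHom M' M φ.toRingHom rfl
  let _ : Algebra P S := ψ.toAlgebra
  have hψ : Function.Surjective ψ :=
    (RingHom.surjectiveOnStalks_of_surjective (f := φ.toRingHom) hφ).localRingHom_surjective
      M' M rfl
  have htower : IsScalarTower K P S := by
    refine IsScalarTower.of_algebraMap_eq fun a => ?_
    rw [IsScalarTower.algebraMap_apply K A P, RingHom.algebraMap_toAlgebra]
    rw [Localization.localRingHom_to_map]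
    rw [IsScalarTower.algebraMap_apply K B S]
    congr 1
    exact (φ.commutes a).symm
  have : IsDomain S := IsLocalization.isDomain_localization (M := M.primeCompl)
    (Ideal.primeCompl_le_nonZeroDivisors M)
  have : Algebra.FormallySmooth A P := Algebra.FormallySmooth.of_isLocalization M'.primeCompl
  have : Algebra.FormallySmooth K P := Algebra.FormallySmooth.comp K A P
  have : IsNoetherianRing P := IsLocalization.isNoetherianRing M'.primeCompl P inferInstance
  have : Algebra.EssFiniteType A P := Algebra.EssFiniteType.of_isLocalization P M'.primeCompl
  have : Algebra.EssFiniteType K P := Algebra.EssFiniteType.comp K A P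
  have : Module.Finite P Ω[P⁄K] := inferInstance
  exact formallySmooth_of_isPrincipal_maximalIdeal (K := K) (P := P) (S := S) hψ
    (algebraMap_residueField_surjective M) (isPrincipal_maximalIdeal_localization M)

/-- **F1c (i).**  A Dedekind domain of finite type over an algebraically closed field is smooth. -/
theorem smooth_of_isDedekindDomain (K B : Type*) [Field K] [IsAlgClosed K] [CommRing B]
    [IsDedekindDomain B] [Algebra K B] [Algebra.FiniteType K B] : Algebra.Smooth K B := by
  have hfp : Algebra.FinitePresentation K B :=
    Algebra.FinitePresentation.of_finiteType.1 inferInstance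
  have hloc : Algebra.smoothLocus K B = Set.univ := by
    by_contra hne
    obtain ⟨p, hp⟩ := (Set.ne_univ_iff_exists_notMem _).1 hne
    have hclosed : IsClosed (Algebra.smoothLocus K B)ᶜ :=
      Algebra.isOpen_smoothLocus.isClosed_compl
    obtain ⟨I₀, hI₀⟩ := (PrimeSpectrum.isClosed_iff_zeroLocus_ideal _).1 hclosed
    have hp' : p ∈ PrimeSpectrum.zeroLocus (I₀ : Set B) := by rw [← hI₀]; exact hp
    have hne_top : I₀ ≠ ⊤ := by
      rintro rfl
      exact p.2.ne_top (top_le_iff.1 hp')
    obtain ⟨M, hM, hIM⟩ := Ideal.exists_le_maximal I₀ hne_top
    have hmem : (⟨M, hM.isPrime⟩ : PrimeSpectrum B) ∈ (Algebra.smoothLocus K B)ᶜ := by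
      rw [hI₀]; exact hIM
    exact hmem (formallySmooth_localization_of_isMaximal M)
  have : Algebra.FormallySmooth K B := Algebra.smoothLocus_eq_univ_iff.1 hloc
  exact ⟨this, hfp⟩

end Global

end Fermat.Agent.AV.F1Model15.SmoothDedekind42
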