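/-
Fermat/Agent/AV/F1Model15/SmoothDedekind42.lean  (helper42) -- programme AV, brick F1c (i):
proof of `SmoothDedekindStatement` of `F1Model15/Interface.lean`.
-/
import Fermat.Agent.AV.F1Model15.Interface
import Fermat.Agent.AV.F1Model15.SmoothDedekind42Global

set_option autoImplicit false

namespace Fermat.Agent.AV.F1Model15.SmoothDedekind42

/-- **F1c (i)** (alternate proof; the official `smoothDedekind` is in `SmoothDedekind85.lean`).
A Dedekind domain of finite type over an algebraically closed field is smooth. -/
theorem smoothDedekind : SmoothDedekindStatement := by
  intro K B _ _ _ _ _ _ _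
  exact smooth_of_isDedekindDomain K B

end Fermat.Agent.AV.F1Model15.SmoothDedekind42
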