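/-
Fermat/Agent/AV/F1Model15/SmoothDedekind42Local.lean  (helper42) -- programme AV, brick F1c (local core).

**Local Jacobian criterion for curves-like local rings.**  Let `K` be a field, `P` a noetherian
local `K`-algebra which is formally smooth over `K` with `Ω[P⁄K]` finite (e.g. a localisation of a
polynomial ring at a `K`-point), and `P → S` a surjection onto a local domain whose residue field
is `K` and whose maximal ideal is principal (a DVR or a field).  Then `S` is formally smooth over
`K`.

Proof: let `I = ker (P → S)`, `m = m_P`, `k = S / m_S = K`.  Since `k = K`, the map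
`m / m² → k ⊗[P] Ω[P⁄K]` is injective (Mathlib: retractions of `kerCotangentToTensor` correspond
to sections of `P / m² → k`).  Choose `f_i ∈ I` such that the `1 ⊗ D f_i` form a basis of the
span of `{1 ⊗ D x | x ∈ I}` and put `J = (f_i)`.  Then `I ≤ J + m²`; with a lift `ϖ` of a generator
of `m_S`, `m = I + (ϖ) ≤ J + (ϖ) + m²`, so `m = J + (ϖ)` by Nakayama.  If `ϖ ∈ I` then `m ≤ I` and
`m ≤ J + m²` gives `I ≤ m ≤ J`; otherwise `I` prime gives `I ≤ J + ϖ I`, so `I ≤ J` by Nakayama.
Hence `I = (f_i)` and `k ⊗[P] I → k ⊗[P] Ω[P⁄K]` maps a spanning family to a linearly independent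
one, so it is injective and Mathlib's Jacobian criterion
`Algebra.FormallySmooth.iff_injective_cotangentComplexBaseChange_residueField` applies.
-/
import Mathlib

set_option autoImplicit false

open TensorProduct KaehlerDifferential IsLocalRing

namespace Fermat.Agent.AV.F1Model15.SmoothDedekind42

section Retraction

variable {K P k : Type*} [CommRing K] [CommRing P] [Algebra K P] [CommRing k] [Algebra P k]
  [Algebra K k] [IsScalarTower K P k]

/-- If `P → k` is surjective and `K → k` is bijective then
`I/I² → k ⊗[P] Ω[P⁄K]` (`I = ker (P → k)`) is injective. -/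
theorem kerCotangentToTensor_injective_of_bijective
    (hs : Function.Surjective (algebraMap P k)) (hb : Function.Bijective (algebraMap K k)) :
    Function.Injective (kerCotangentToTensor K P k) := by
  let eK : K ≃ₐ[K] k := AlgEquiv.ofBijective (Algebra.ofId K k) hb
  let g : k →ₐ[K] P ⧸ RingHom.ker (IsScalarTower.toAlgHom K P k).toRingHom ^ 2 :=
    (Algebra.ofId K _).comp eK.symm.toAlgHom
  have hg : (IsScalarTower.toAlgHom K P k).kerSquareLift.comp g = AlgHom.id K k := by
    ext a
    obtain ⟨a, rfl⟩ := eK.surjective a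
    have h1 : g (eK a) = algebraMap K _ a := by
      simp only [g, AlgHom.comp_apply]
      erw [eK.symm_apply_apply]
      rfl
    rw [AlgHom.comp_apply, h1, AlgHom.commutes]
    rfl
  obtain ⟨l, hl⟩ := (retractionKerCotangentToTensorEquivSection (R := K) hs).symm ⟨g, hg⟩
  exact Function.LeftInverse.injective (g := l) (fun x => LinearMap.congr_fun hl x)

/-- `1 ⊗ D y = 0` in `k ⊗[P] Ω[P⁄K]` forces `y ∈ I²` for `y ∈ I = ker (P → k)`, when the
residue ring `k` is `K` itself. -/
theorem mem_sq_of_kerToTensor_eq_zero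
    (hs : Function.Surjective (algebraMap P k)) (hb : Function.Bijective (algebraMap K k))
    (y : RingHom.ker (algebraMap P k)) (hy : kerToTensor K P k y = 0) :
    (y : P) ∈ RingHom.ker (algebraMap P k) ^ 2 := by
  rw [← Ideal.toCotangent_eq_zero]
  apply kerCotangentToTensor_injective_of_bijective (K := K) hs hb
  rw [map_zero, kerCotangentToTensor_toCotangent]
  simpa [kerToTensor_apply] using hy

end Retraction

section Local

variable {K P S : Type*} [Field K] [CommRing P] [IsLocalRing P] [IsNoetherianRing P]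
  [Algebra K P] [Algebra.FormallySmooth K P] [Module.Finite P Ω[P⁄K]]
  [CommRing S] [IsLocalRing S] [IsDomain S] [Algebra K S] [Algebra P S] [IsScalarTower K P S]

/-- **Local Jacobian criterion, curve case.**  A local domain `S` with principal maximal ideal and
residue field `K`, which is a quotient of a noetherian local formally smooth `K`-algebra `P` with
`Ω[P⁄K]` finite, is formally smooth over `K`. -/
theorem formallySmooth_of_isPrincipal_maximalIdeal
    (hPS : Function.Surjective (algebraMap P S))
    (hres : Function.Surjective (algebraMap K (ResidueField S)))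
    (hprin : (maximalIdeal S).IsPrincipal) :
    Algebra.FormallySmooth K S := by
  classical
  have hPk : Function.Surjective (algebraMap P (ResidueField S)) := by
    rw [IsScalarTower.algebraMap_eq P S (ResidueField S)]
    exact residue_surjective.comp hPS
  have hKk : Function.Bijective (algebraMap K (ResidueField S)) :=
    ⟨(algebraMap K (ResidueField S)).injective, hres⟩
  have hIk_max : RingHom.ker (algebraMap P (ResidueField S)) = maximalIdeal P :=
    IsLocalRing.eq_maximalIdeal (RingHom.ker_isMaximal_of_surjective _ hPk)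
  have hIIk : RingHom.ker (algebraMap P S) ≤ RingHom.ker (algebraMap P (ResidueField S)) := by
    intro x hx
    rw [RingHom.mem_ker] at hx ⊢
    rw [IsScalarTower.algebraMap_apply P S (ResidueField S), hx, map_zero]
  have : Module.Free P Ω[P⁄K] := Module.free_of_flat_of_isLocalRing
  rw [Algebra.FormallySmooth.iff_injective_cotangentComplexBaseChange_residueField P hPS
    (IsNoetherian.noetherian _)]
  -- notation
  set k := ResidueField S with hk
  set I : Ideal P := RingHom.ker (algebraMap P S) with hI
  set Ik : Ideal P := RingHom.ker (algebraMap P k) with hIkdef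
  set m : Ideal P := maximalIdeal P with hm
  let T : Ik →ₗ[P] k ⊗[P] Ω[P⁄K] := kerToTensor K P k
  -- the family of all `1 ⊗ D x`, `x ∈ I`
  let s : Set (k ⊗[P] Ω[P⁄K]) := Set.range fun x : I => T ⟨x.1, hIIk x.2⟩
  obtain ⟨b, hbs, hbspan, hbli⟩ := exists_linearIndependent k s
  have hbfin : b.Finite := hbli.setFinite
  have : Fintype b := hbfin.fintype
  have hchoose : ∀ i : b, ∃ x : I, T ⟨x.1, hIIk x.2⟩ = i.1 := fun i => hbs i.2
  choose f hf using hchoose
  set J : Ideal P := Ideal.span (Set.range fun i : b => (f i : P)) with hJ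
  have hJI : J ≤ I := by
    rw [hJ, Ideal.span_le]
    rintro _ ⟨i, rfl⟩
    exact (f i).2
  -- Step 3 : `I ≤ J ⊔ m ^ 2`
  have hstep3 : I ≤ J ⊔ m ^ 2 := by
    intro x hx
    have hxs : T ⟨x, hIIk hx⟩ ∈ Submodule.span k b := by
      rw [hbspan]
      exact Submodule.subset_span ⟨⟨x, hx⟩, rfl⟩
    rw [← Subtype.range_coe (s := b), Submodule.mem_span_range_iff_exists_fun] at hxs
    obtain ⟨a, ha⟩ := hxs
    choose p hp using fun i => hPk (a i)
    let y : Ik := ⟨x, hIIk hx⟩ - ∑ i, p i • (⟨(f i).1, hIIk (f i).2⟩ : Ik)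
    have hTy : T y = 0 := by
      simp only [y, map_sub, map_sum, map_smul, hf]
      rw [← ha, sub_eq_zero]
      refine Finset.sum_congr rfl fun i _ => ?_
      rw [← hp i, algebraMap_smul]
    have hsq : ∀ z : P, z ∈ Ik ^ 2 → z ∈ m ^ 2 := fun z hz => by rwa [hIk_max] at hz
    have hy2 : (y : P) ∈ m ^ 2 := hsq _ (mem_sq_of_kerToTensor_eq_zero (K := K) hPk hKk y hTy)
    have hxy : x = ∑ i, p i * (f i : P) + (y : P) := by
      simp [y]
    rw [hxy]
    refine Submodule.add_mem_sup (Ideal.sum_mem _ fun i _ => ?_) hy2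
    exact Ideal.mul_mem_left _ _ (Ideal.subset_span ⟨i, rfl⟩)
  -- Step 4 : a uniformiser
  obtain ⟨ϖS, hϖS⟩ := hprin.principal
  obtain ⟨ϖ, hϖ⟩ := hPS ϖS
  have hmjac : m ≤ Ideal.jacobson ⊥ := by
    rw [hm, IsLocalRing.jacobson_eq_maximalIdeal ⊥ bot_ne_top]
  have hIm : I ≤ m := hIk_max ▸ hIIk
  have hm_le : m ≤ I ⊔ Ideal.span {ϖ} := by
    intro z hz
    have hz' : algebraMap P S z ∈ maximalIdeal S := by
      rw [← hIk_max, hIkdef, RingHom.mem_ker, IsScalarTower.algebraMap_apply P S k] at hz
      rwa [← Ideal.Quotient.eq_zero_iff_mem]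
    rw [hϖS] at hz'
    obtain ⟨tS, htS⟩ := Ideal.mem_span_singleton'.1 hz'
    obtain ⟨t, rfl⟩ := hPS tS
    have : z - t * ϖ ∈ I := by
      rw [hI, RingHom.mem_ker, map_sub, map_mul, hϖ, htS, sub_self]
    have h2 : z = (z - t * ϖ) + t * ϖ := by ring
    rw [h2]
    exact Submodule.add_mem_sup this (Ideal.mul_mem_left _ _ (Ideal.mem_span_singleton_self ϖ))
  have hIfg : (I : Submodule P P).FG := IsNoetherian.noetherian _
  have hmfg : (m : Submodule P P).FG := IsNoetherian.noetherian _
  -- Step 5 : `I = J`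
  have hIJ : I ≤ J := by
    by_cases hϖI : ϖ ∈ I
    · -- then `m ≤ I`
      have hmI : m ≤ I := hm_le.trans (sup_le le_rfl ((Ideal.span_singleton_le_iff_mem _).2 hϖI))
      have : m ≤ J := by
        refine Submodule.le_of_le_smul_of_le_jacobson_bot (I := m) hmfg hmjac ?_
        rw [Ideal.smul_eq_mul, ← pow_two]
        exact hmI.trans hstep3
      exact hIm.trans this
    · have hIprime : I.IsPrime := RingHom.ker_isPrime _
      have hm_le' : m ≤ J ⊔ Ideal.span {ϖ} := by
        refine Submodule.le_of_le_smul_of_le_jacobson_bot (I := m) hmfg hmjac ?_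
        rw [Ideal.smul_eq_mul, ← pow_two]
        refine hm_le.trans (sup_le (hstep3.trans ?_) ?_)
        · exact sup_le (le_sup_left.trans le_sup_left) le_sup_right
        · exact le_sup_right.trans le_sup_left
      refine Submodule.le_of_le_smul_of_le_jacobson_bot (I := m) hIfg hmjac ?_
      intro x hx
      obtain ⟨j, hj, w, hw, rfl⟩ := Submodule.mem_sup.1 (hm_le' (hIm hx))
      obtain ⟨a, rfl⟩ := Ideal.mem_span_singleton'.1 hw
      have haϖ : a * ϖ ∈ I := by
        have := I.sub_mem hx (hJI hj)
        simpa using this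
      have haI : a ∈ I := (hIprime.mem_or_mem haϖ).resolve_right hϖI
      refine Submodule.add_mem_sup hj ?_
      rw [mul_comm]
      refine Submodule.smul_mem_smul ?_ haI
      rw [hm, IsLocalRing.mem_maximalIdeal, mem_nonunits_iff]
      intro hu
      have hu' : IsUnit ϖS := hϖ ▸ hu.map (algebraMap P S)
      have hmem : ϖS ∈ maximalIdeal S := by
        rw [hϖS]; exact Ideal.mem_span_singleton_self ϖS
      exact (IsLocalRing.mem_maximalIdeal _).1 hmem hu'
  -- Step 6 : injectivity
  let e : b → k ⊗[P] I := fun i => (1 : k) ⊗ₜ[P] (f i)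
  have hce : ∀ i, cotangentComplexBaseChange K S P k (e i) = i.1 := by
    intro i
    have h1 := KaehlerDifferential.cotangentComplexBaseChange_tmul (R := K) (S := S) (P := P)
      (A := k) (1 : k) (f i)
    rw [one_smul] at h1
    exact h1.trans (hf i)
  have hspanJ : ∀ x : P, x ∈ J → ∀ hxI : x ∈ I,
      ((1 : k) ⊗ₜ[P] (⟨x, hxI⟩ : I)) ∈ Submodule.span k (Set.range e) := by
    intro x hx
    refine Submodule.span_induction (p := fun x _ => ∀ hxI : x ∈ I,
      ((1 : k) ⊗ₜ[P] (⟨x, hxI⟩ : I)) ∈ Submodule.span k (Set.range e)) ?_ ?_ ?_ ?_ hx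
    · rintro _ ⟨i, rfl⟩ hxI
      exact Submodule.subset_span ⟨i, rfl⟩
    · intro hxI
      have : (⟨0, hxI⟩ : I) = 0 := rfl
      rw [this, TensorProduct.tmul_zero]
      exact Submodule.zero_mem _
    · intro x y hx hy ihx ihy hxI
      have hxI' : x ∈ I := hJI hx
      have hyI' : y ∈ I := hJI hy
      have : (⟨x + y, hxI⟩ : I) = ⟨x, hxI'⟩ + ⟨y, hyI'⟩ := rfl
      rw [this, TensorProduct.tmul_add]
      exact Submodule.add_mem _ (ihx hxI') (ihy hyI')
    · intro a x hx ihx hxI
      have hxI' : x ∈ I := hJI hx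
      have : (⟨a • x, hxI⟩ : I) = a • ⟨x, hxI'⟩ := rfl
      rw [this, TensorProduct.tmul_smul, ← algebraMap_smul k a]
      exact Submodule.smul_mem _ _ (ihx hxI')
  have hspan : ∀ t : k ⊗[P] I, t ∈ Submodule.span k (Set.range e) := by
    intro t
    induction t using TensorProduct.induction_on with
    | zero => exact Submodule.zero_mem _
    | tmul a x =>
      have : a ⊗ₜ[P] x = a • ((1 : k) ⊗ₜ[P] (⟨x.1, x.2⟩ : I)) := by
        rw [TensorProduct.smul_tmul', smul_eq_mul, mul_one]
      rw [this]
      exact Submodule.smul_mem _ _ (hspanJ x.1 (hIJ x.2) x.2)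
    | add x y hx hy => exact Submodule.add_mem _ hx hy
  rw [injective_iff_map_eq_zero]
  intro t ht
  obtain ⟨a, rfl⟩ := (Submodule.mem_span_range_iff_exists_fun k).1 (hspan t)
  rw [map_sum] at ht
  have ht' : ∑ i, a i • (i : k ⊗[P] Ω[P⁄K]) = 0 := by
    rw [← ht]
    refine Finset.sum_congr rfl fun i _ => ?_
    rw [map_smul, hce]
  have ha := Fintype.linearIndependent_iff.1 hbli a ht'
  simp [ha]

end Local

end Fermat.Agent.AV.F1Model15.SmoothDedekind42
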