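/-
Programme AV (S26/S27), brick F1 (model curve of a function field), sub-brick **F1c (i)**, helper96.

`SmoothDedekind96`: **a Dedekind domain of finite type over an algebraically closed field `K` is
smooth over `K`.**  Mathlib only.

Proof.  Finite type over a field gives finite presentation, so by `Algebra.smoothLocus_eq_univ_iff`
and the openness of the smooth locus it suffices to prove formal smoothness of `B_m` for every
maximal ideal `m` (every prime specialises to a maximal ideal).  If `B` is a field then `B = K`
(Nullstellensatz).  Otherwise `m ≠ ⊥`, `B_m` is a discrete valuation ring; choose `b ∈ B` whose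
image generates the maximal ideal of `B_m` and make `B` a `K[X]`-algebra by `X ↦ b`.  Then
* `b` is transcendental over `K` (an algebraic element of the domain `B` lies in `K`, and `b` is a
  nonzero nonunit), so `B` is torsion free, hence flat, over the principal ideal domain `K[X]`;
* `B` is of finite presentation over `K[X]`;
* `K[X] → B` is unramified at `m`: the residue field of `m` is `K` and `m B_m = b B_m` is generated
  by the image of `X` (`Algebra.isUnramifiedAt_iff_map_eq`).
By `Algebra.IsEtaleAt.of_isUnramifiedAt_of_flat`, `B_m` is formally etale over `K[X]`, hence formally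
smooth over `K`.

Main statements:
* `algebraMap_quotient_bijective`, `exists_sub_mem` : residue fields of maximal ideals are `K`;
* `algebraMap_polynomial_injective`, `flat_polynomial`, `finitePresentation_polynomial`;
* `isUnramifiedAt_polynomial`;
* `isSmoothAt_of_isMaximal` : smoothness at a nonzero maximal ideal;
* `smooth_of_isDedekindDomain` : the theorem.
-/
import Mathlib

set_option autoImplicit false

namespace Fermat.Agent.AV.F1Model15.SmoothDedekind96

open Polynomial IsLocalRing

section ResidueFields

variable {K B : Type*} [Field K] [IsAlgClosed K] [CommRing B] [Algebra K B]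
  [Algebra.FiniteType K B]

/-- Nullstellensatz: the residue field of a maximal ideal of a finite type algebra over an
algebraically closed field `K` is `K`. -/
theorem algebraMap_quotient_bijective (m : Ideal B) [m.IsMaximal] :
    Function.Bijective (algebraMap K (B ⧸ m)) := by
  let _ := Ideal.Quotient.field m
  have : Algebra.FiniteType K (B ⧸ m) :=
    Algebra.FiniteType.of_surjective (Ideal.Quotient.mkₐ K m) (Ideal.Quotient.mkₐ_surjective K m)
  have : Module.Finite K (B ⧸ m) := finite_of_finite_type_of_isJacobsonRing K (B ⧸ m)
  have : Algebra.IsIntegral K (B ⧸ m) := Algebra.IsIntegral.of_finite K (B ⧸ m)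
  exact IsAlgClosed.algebraMap_bijective_of_isIntegral

/-- Every element of `B` is congruent to a constant modulo a maximal ideal. -/
theorem exists_sub_mem (m : Ideal B) [m.IsMaximal] (x : B) :
    ∃ c : K, x - algebraMap K B c ∈ m := by
  obtain ⟨c, hc⟩ := (algebraMap_quotient_bijective (K := K) m).2 (Ideal.Quotient.mk m x)
  refine ⟨c, ?_⟩
  rw [← Ideal.Quotient.eq, ← hc]
  rfl

end ResidueFields

section PolyAlg

variable {K B : Type*} [Field K] [IsAlgClosed K] [CommRing B] [IsDomain B] [Algebra K B]
  [Algebra K[X] B] [IsScalarTower K K[X] B]

omit [IsAlgClosed K] [IsDomain B] in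
theorem algebraMap_eq_aeval (p : K[X]) :
    algebraMap K[X] B p = aeval (algebraMap K[X] B X) p := by
  have := Polynomial.aeval_algHom_apply (IsScalarTower.toAlgHom K K[X] B) X p
  rw [aeval_X_left] at this
  exact this.symm

/-- If `X` maps to a nonzero nonunit of the domain `B`, then `K[X] → B` is injective. -/
theorem algebraMap_polynomial_injective (hb0 : algebraMap K[X] B X ≠ 0)
    (hbu : ¬ IsUnit (algebraMap K[X] B X)) : Function.Injective (algebraMap K[X] B) := by
  set b := algebraMap K[X] B X with hb
  have htr : Transcendental K b := by
    intro halg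
    have hint : IsIntegral K b := halg.isIntegral
    have hdeg : (minpoly K b).degree = 1 :=
      IsAlgClosed.degree_eq_one_of_irreducible K (minpoly.irreducible hint)
    obtain ⟨c, hc⟩ := minpoly.mem_range_of_degree_eq_one K b hdeg
    by_cases hc0 : c = 0
    · apply hb0
      rw [← hc, hc0, map_zero]
    · apply hbu
      rw [← hc]
      exact (IsUnit.mk0 c hc0).map (algebraMap K B)
  have hinj : Function.Injective (aeval b : K[X] →ₐ[K] B) :=
    transcendental_iff_injective.mp htr
  intro p q hpq
  apply hinj
  rw [← algebraMap_eq_aeval, ← algebraMap_eq_aeval]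
  exact hpq

theorem flat_polynomial (hb0 : algebraMap K[X] B X ≠ 0)
    (hbu : ¬ IsUnit (algebraMap K[X] B X)) : Module.Flat K[X] B := by
  have : Module.IsTorsionFree K[X] B :=
    Module.isTorsionFree_iff_algebraMap_injective.mpr (algebraMap_polynomial_injective hb0 hbu)
  infer_instance

omit [IsAlgClosed K] [IsDomain B] in
theorem finitePresentation_polynomial [Algebra.FiniteType K B] :
    Algebra.FinitePresentation K[X] B := by
  have : Algebra.FiniteType K[X] B := Algebra.FiniteType.of_restrictScalars_finiteType K K[X] B
  exact Algebra.FinitePresentation.of_finiteType.mp this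

end PolyAlg

section Unram

variable {K B : Type*} [Field K] [CommRing B] [Algebra K B]
  [Algebra K[X] B] [IsScalarTower K K[X] B] [Algebra.FiniteType K B]

/-- `K[X] → B` is unramified at a maximal ideal `m` with residue field `K` whose localisation has
maximal ideal generated by the image of `X`. -/
theorem isUnramifiedAt_polynomial (m : Ideal B) [m.IsMaximal]
    (hres : ∀ x : B, ∃ c : K, x - algebraMap K B c ∈ m)
    (hspan : maximalIdeal (Localization.AtPrime m) =
      Ideal.span {algebraMap B (Localization.AtPrime m) (algebraMap K[X] B X)}) :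
    Algebra.IsUnramifiedAt K[X] m := by
  have : Algebra.FiniteType K[X] B := Algebra.FiniteType.of_restrictScalars_finiteType K K[X] B
  let p : Ideal K[X] := m.under K[X]
  let _ : Algebra (Localization.AtPrime p) (Localization.AtPrime m) :=
    Localization.AtPrime.algebraOfLiesOver p m
  rw [Algebra.isUnramifiedAt_iff_map_eq K[X] p m]
  have hbm : algebraMap K[X] B X ∈ m := by
    rw [← IsLocalization.AtPrime.to_map_mem_maximal_iff (Localization.AtPrime m) m, hspan]
    exact Ideal.mem_span_singleton_self _
  refine ⟨⟨fun x => ?_⟩, le_antisymm ?_ ?_⟩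
  · -- the residue field extension is trivial
    obtain ⟨y, rfl⟩ := Ideal.algebraMap_residueField_surjective m x
    obtain ⟨c, hc⟩ := hres y
    have h1 : algebraMap B m.ResidueField y = algebraMap B m.ResidueField (algebraMap K B c) := by
      rw [← sub_eq_zero, ← map_sub, Ideal.algebraMap_residueField_eq_zero]
      exact hc
    rw [h1, ← IsScalarTower.algebraMap_apply K B m.ResidueField,
      IsScalarTower.algebraMap_apply K p.ResidueField m.ResidueField]
    exact isSeparable_algebraMap _
  · rw [Ideal.map_le_iff_le_comap]
    intro x hx
    rw [Ideal.mem_comap, IsScalarTower.algebraMap_apply K[X] B (Localization.AtPrime m),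
      IsLocalization.AtPrime.to_map_mem_maximal_iff (Localization.AtPrime m) m]
    exact hx
  · rw [hspan, Ideal.span_singleton_le_iff_mem,
      ← IsScalarTower.algebraMap_apply K[X] B (Localization.AtPrime m)]
    exact Ideal.mem_map_of_mem _ hbm

end Unram

section Local

variable {K B : Type*} [Field K] [IsAlgClosed K] [CommRing B] [IsDedekindDomain B]
  [Algebra K B] [Algebra.FiniteType K B]

/-- **Smoothness at a closed point**: a Dedekind domain of finite type over an algebraically
closed field `K` is smooth over `K` at every nonzero maximal ideal. -/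
theorem isSmoothAt_of_isMaximal (m : Ideal B) [m.IsMaximal] (hm : m ≠ ⊥) :
    Algebra.IsSmoothAt K m := by
  have hdvr : IsDiscreteValuationRing (Localization.AtPrime m) :=
    IsLocalization.AtPrime.isDiscreteValuationRing_of_dedekind_domain B hm _
  obtain ⟨ϖ, hϖ⟩ := IsDiscreteValuationRing.exists_irreducible (Localization.AtPrime m)
  obtain ⟨⟨b, s⟩, hbs⟩ := IsLocalization.mk'_surjective m.primeCompl ϖ
  simp only at hbs
  subst hbs
  have hspan : maximalIdeal (Localization.AtPrime m) =
      Ideal.span {algebraMap B (Localization.AtPrime m) b} := by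
    rw [hϖ.maximalIdeal_eq, ← IsLocalization.mk'_spec (Localization.AtPrime m) b s]
    exact (Ideal.span_singleton_mul_right_unit (IsLocalization.map_units _ s) _).symm
  have hbm : b ∈ m := by
    rw [← IsLocalization.AtPrime.to_map_mem_maximal_iff (Localization.AtPrime m) m, hspan]
    exact Ideal.mem_span_singleton_self _
  have hb0 : b ≠ 0 := by
    rintro rfl
    apply IsDiscreteValuationRing.not_a_field (Localization.AtPrime m)
    rw [hspan, map_zero, Ideal.span_singleton_eq_bot]
  have hbu : ¬ IsUnit b := fun hu =>
    (Ideal.IsMaximal.ne_top ‹_›) (Ideal.eq_top_of_isUnit_mem m hbm hu)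
  -- the `K[X]`-algebra structure `X ↦ b`
  let f : K[X] →ₐ[K] B := aeval b
  let _ : Algebra K[X] B := f.toRingHom.toAlgebra
  have : IsScalarTower K K[X] B := IsScalarTower.of_algHom f
  have hX : algebraMap K[X] B X = b := aeval_X b
  have : Module.Flat K[X] B := flat_polynomial (by rw [hX]; exact hb0) (by rw [hX]; exact hbu)
  have : Algebra.FinitePresentation K[X] B := finitePresentation_polynomial
  have : Algebra.IsUnramifiedAt K[X] m :=
    isUnramifiedAt_polynomial m (exists_sub_mem m) (by rw [hX]; exact hspan)
  have het : Algebra.IsEtaleAt K[X] m := Algebra.IsEtaleAt.of_isUnramifiedAt_of_flat m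
  have : Algebra.FormallyEtale K[X] (Localization.AtPrime m) := het
  exact Algebra.FormallySmooth.comp K K[X] (Localization.AtPrime m)

end Local

section Global

variable (K B : Type*) [Field K] [IsAlgClosed K] [CommRing B] [IsDedekindDomain B]
  [Algebra K B] [Algebra.FiniteType K B]

/-- **F1c (i).** A Dedekind domain of finite type over an algebraically closed field is smooth. -/
theorem smooth_of_isDedekindDomain : Algebra.Smooth K B := by
  have hfp : Algebra.FinitePresentation K B := Algebra.FinitePresentation.of_finiteType.mp ‹_›
  refine ⟨?_, hfp⟩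
  by_cases hf : IsField B
  · -- `B` is a field, hence `B = K`
    have hmax : (⊥ : Ideal B).IsMaximal := Ring.isField_iff_maximal_bot.mp hf
    have hsurj : Function.Surjective (algebraMap K B) := fun x => by
      obtain ⟨c, hc⟩ := exists_sub_mem (K := K) (⊥ : Ideal B) x
      exact ⟨c, (sub_eq_zero.mp ((Submodule.mem_bot B).mp hc)).symm⟩
    let e : K ≃ₐ[K] B :=
      AlgEquiv.ofBijective (Algebra.ofId K B) ⟨(algebraMap K B).injective, hsurj⟩
    exact Algebra.FormallySmooth.of_equiv e
  · rw [← Algebra.smoothLocus_eq_univ_iff, Set.eq_univ_iff_forall]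
    intro q
    obtain ⟨m, hm, hqm⟩ := Ideal.exists_le_maximal q.asIdeal q.isPrime.ne_top
    have hmem : (⟨m, hm.isPrime⟩ : PrimeSpectrum B) ∈ Algebra.smoothLocus K B :=
      isSmoothAt_of_isMaximal m (Ring.ne_bot_of_isMaximal_of_not_isField hm hf)
    exact Specializes.mem_open ((PrimeSpectrum.le_iff_specializes q ⟨m, hm.isPrime⟩).mp hqm)
      Algebra.isOpen_smoothLocus hmem

end Global

end Fermat.Agent.AV.F1Model15.SmoothDedekind96
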